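import Fermat.Agent.A2.H12.WallG

/-!
# S35, cell FROB — the deck lemma for a FROBENIUS lift (helper891)

Variant of helper12's route-G wall (`Fermat/Agent/A2/H12/{Deck,DeckTwo,WallG}.lean`) for a ring
automorphism `φ̃` of the cover which does NOT act trivially on the residue rings of the sheets
(a lift of a Frobenius element).  The hypothesis `h_triv` of `A2.H12.wallG` is replaced by

* `h_node` : if `φ̃` fixes the sheet `s` and a second sheet `t ≠ s` passes through the closed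
  point `𝔫` of `s`, then `φ̃⁻¹` maps `𝔫` into itself (crossing points on a fixed sheet are fixed),

and the root-of-unity hypothesis `τ ζ = ζ` by `φ̃ ζ = ζ ^ Q`.  Conclusion: `φ̃ y / y ^ Q` is
invariant under the Galois group.

Mathlib + `A2.H12` (definitions `Adj`, `TwoAdj`, `SubAdj`, `SepAt`, `chartIdeal`, lemmas
`sheetGraph_connected_sub`, `wallG_comm`, `exists_maximal_of_not_comaximal`).
-/

set_option autoImplicit false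

namespace Fermat.Agent.S35.H891

open Fermat.Agent.A2.H12

open scoped Classical

section Graph

variable {S P : Type*}

/-- **Graph lemma, node form.**  As `A2.H12.fixes_all`, but only the points of a fixed sheet
through which a SECOND sheet passes are assumed to be fixed. -/
theorem fixes_all_node {C : Type*} (inc : S → P → Prop) (col : S → C) (τS : S → S)
    (τP : P → P)
    (h_col : ∀ s, col (τS s) = col s)
    (h_inc : ∀ s p, inc s p → inc (τS s) (τP p))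
    (h_fix : ∀ s t p, τS s = s → s ≠ t → inc s p → inc t p → τP p = p)
    (h_uni : ∀ s t p, inc s p → inc t p → col s = col t → s = t)
    (h_conn : ∀ s t : S, Relation.ReflTransGen (Adj inc) s t)
    (s₀ : S) (h₀ : τS s₀ = s₀) : ∀ s, τS s = s := by
  intro s
  have key : ∀ a b, Relation.ReflTransGen (Adj inc) a b → τS a = a → τS b = b := by
    intro a b hab
    induction hab with
    | refl => exact id
    | @tail b c _ hbc ih =>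
      intro ha
      have hb := ih ha
      by_cases hbc' : b = c
      · rw [← hbc']; exact hb
      · obtain ⟨p, hbp, hcp⟩ := hbc
        have hp : τP p = p := h_fix b c p hb hbc' hbp hcp
        have h1 := h_inc _ p hcp
        rw [hp] at h1
        exact h_uni _ _ p h1 hcp (h_col _)
  exact key s₀ s (h_conn s₀ s) h₀

end Graph

section Two

variable {R₁ R₂ : Type*} [CommRing R₁] [CommRing R₂] {S C : Type*}

/-- **Deck lemma, two charts, ring form, node version.** -/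
theorem fixes_all_two_node (ρ₁ : R₁ →+* R₁) (hρ₁ : Function.Surjective ρ₁)
    (ρ₂ : R₂ →+* R₂) (hρ₂ : Function.Surjective ρ₂)
    (Q₁ : S → Ideal R₁) (Q₂ : S → Ideal R₂) (τS : S → S) (col : S → C)
    (hQ₁ : ∀ s b, b ∈ Q₁ (τS s) → ρ₁ b ∈ Q₁ s)
    (hQ₂ : ∀ s b, b ∈ Q₂ (τS s) → ρ₂ b ∈ Q₂ s)
    (h_col : ∀ s, col (τS s) = col s)
    (h_node₁ : ∀ s t, τS s = s → s ≠ t → ∀ 𝔫 : Ideal R₁, 𝔫.IsMaximal → Q₁ s ≤ 𝔫 → Q₁ t ≤ 𝔫 →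
      ∀ b ∈ 𝔫, ρ₁ b ∈ 𝔫)
    (h_node₂ : ∀ s t, τS s = s → s ≠ t → ∀ 𝔫 : Ideal R₂, 𝔫.IsMaximal → Q₂ s ≤ 𝔫 → Q₂ t ≤ 𝔫 →
      ∀ b ∈ 𝔫, ρ₂ b ∈ 𝔫)
    (h_uni₁ : ∀ 𝔫 : Ideal R₁, 𝔫.IsMaximal → ∀ s t, col s = col t →
      Q₁ s ≤ 𝔫 → Q₁ t ≤ 𝔫 → s = t)
    (h_uni₂ : ∀ 𝔫 : Ideal R₂, 𝔫.IsMaximal → ∀ s t, col s = col t →
      Q₂ s ≤ 𝔫 → Q₂ t ≤ 𝔫 → s = t)
    (h_conn : ∀ s t : S, Relation.ReflTransGen (TwoAdj Q₁ Q₂) s t)
    (s₀ : S) (h₀ : τS s₀ = s₀) : ∀ s, τS s = s := by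
  classical
  let Pt := {𝔫 : Ideal R₁ // 𝔫.IsMaximal} ⊕ {𝔫 : Ideal R₂ // 𝔫.IsMaximal}
  let inc : S → Pt → Prop := fun s p =>
    Sum.elim (fun 𝔫 => Q₁ s ≤ 𝔫.1) (fun 𝔫 => Q₂ s ≤ 𝔫.1) p
  let τP : Pt → Pt := fun p =>
    Sum.elim
      (fun 𝔫 => Sum.inl ⟨𝔫.1.comap ρ₁, by
        have := 𝔫.2
        exact Ideal.comap_isMaximal_of_surjective ρ₁ hρ₁⟩)
      (fun 𝔫 => Sum.inr ⟨𝔫.1.comap ρ₂, by
        have := 𝔫.2
        exact Ideal.comap_isMaximal_of_surjective ρ₂ hρ₂⟩) p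
  refine fixes_all_node inc col τS τP h_col ?_ ?_ ?_ ?_ s₀ h₀
  · -- incidence is preserved
    rintro s (𝔫 | 𝔫) hsp
    · intro b hb
      exact hsp (hQ₁ s b hb)
    · intro b hb
      exact hsp (hQ₂ s b hb)
  · -- crossing points of a fixed sheet are fixed
    rintro s t (𝔫 | 𝔫) hs hst hsp htp
    · have hle : 𝔫.1 ≤ 𝔫.1.comap ρ₁ := fun b hb =>
        Ideal.mem_comap.2 (h_node₁ s t hs hst 𝔫.1 𝔫.2 hsp htp b hb)
      have hmax : (𝔫.1.comap ρ₁).IsMaximal := by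
        have := 𝔫.2
        exact Ideal.comap_isMaximal_of_surjective ρ₁ hρ₁
      have : 𝔫.1.comap ρ₁ = 𝔫.1 := (𝔫.2.eq_of_le hmax.ne_top hle).symm
      exact congrArg Sum.inl (Subtype.ext this)
    · have hle : 𝔫.1 ≤ 𝔫.1.comap ρ₂ := fun b hb =>
        Ideal.mem_comap.2 (h_node₂ s t hs hst 𝔫.1 𝔫.2 hsp htp b hb)
      have hmax : (𝔫.1.comap ρ₂).IsMaximal := by
        have := 𝔫.2
        exact Ideal.comap_isMaximal_of_surjective ρ₂ hρ₂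
      have : 𝔫.1.comap ρ₂ = 𝔫.1 := (𝔫.2.eq_of_le hmax.ne_top hle).symm
      exact congrArg Sum.inr (Subtype.ext this)
  · -- COUNT
    rintro s t (𝔫 | 𝔫) hs ht hc
    · exact h_uni₁ 𝔫.1 𝔫.2 s t hc hs ht
    · exact h_uni₂ 𝔫.1 𝔫.2 s t hc hs ht
  · -- connectedness
    intro s t
    refine Relation.ReflTransGen.mono ?_ _ _ (h_conn s t)
    rintro a b (h | h)
    · obtain ⟨𝔫, h𝔫, ha, hb⟩ := exists_maximal_of_not_comaximal _ _ h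
      exact ⟨Sum.inl ⟨𝔫, h𝔫⟩, ha, hb⟩
    · obtain ⟨𝔫, h𝔫, ha, hb⟩ := exists_maximal_of_not_comaximal _ _ h
      exact ⟨Sum.inr ⟨𝔫, h𝔫⟩, ha, hb⟩

end Two

section Kummer

variable {L : Type*} [Field L]

/-- **Kummer part, Frobenius version.**  If `τ` commutes with every `g ∈ G` on `y`, and every
`g ∈ G` multiplies `y` by a root of unity `ζ` with `τ ζ = ζ ^ Q`, then `τ y / y ^ Q` is fixed
by `G`. -/
theorem kummer_of_commute_pow (G : Set (L ≃+* L)) (τ : L ≃+* L) (y : L) (hy : y ≠ 0) (Q : ℕ)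
    (h_comm : ∀ g ∈ G, τ (g y) = g (τ y))
    (h_char : ∀ g ∈ G, ∃ ζ : L, g y = ζ * y ∧ τ ζ = ζ ^ Q) :
    ∀ g ∈ G, g (τ y / y ^ Q) = τ y / y ^ Q := by
  intro g hg
  obtain ⟨ζ, hζ, hτζ⟩ := h_char g hg
  have h1 : g (τ y) = ζ ^ Q * τ y := by
    rw [← h_comm g hg, hζ, map_mul, hτζ]
  have hζ0 : ζ ≠ 0 := by
    rintro rfl
    rw [zero_mul] at hζ
    exact hy ((map_eq_zero_iff g g.injective).1 hζ)
  have hyQ : y ^ Q ≠ 0 := pow_ne_zero _ hy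
  have hζQ : ζ ^ Q ≠ 0 := pow_ne_zero _ hζ0
  rw [map_div₀, h1, map_pow, hζ, mul_pow]
  field_simp

end Kummer

section Val

variable {R : Type*} [CommRing R] {L : Type*} [Field L] [Algebra R L] {S : Type*}

/-- **Frobenius wall, step "φ̃ fixes every sheet".** -/
theorem wallF_fixes [Fintype S] (w : R) (Bfin Binf Bmid : Subalgebra R L)
    (M : S → AddSubgroup L)
    (habs : ∀ s, ∀ c ∈ Bmid, ∀ a ∈ M s, c * a ∈ M s)
    (hfm : Bfin ≤ Bmid) (him : Binf ≤ Bmid)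
    (hM1 : ∀ s, (1 : L) ∉ M s) (hwM : ∀ s, algebraMap R L w ∈ M s)
    (hred_mid : ∀ b ∈ Bmid, (∀ s, b ∈ M s) → ∃ t ∈ Bmid, b = algebraMap R L w * t)
    (hred_fin : ∀ b ∈ Bfin, (∀ s, b ∈ M s) → ∃ t ∈ Bfin, b = algebraMap R L w * t)
    (hred_inf : ∀ b ∈ Binf, (∀ s, b ∈ M s) → ∃ t ∈ Binf, b = algebraMap R L w * t)
    (hcech : ∀ e₁ e₂ : L, e₁ ∈ Bfin → e₂ ∈ Binf →
      (∃ t ∈ Bfin, e₁ ^ 2 - e₁ = algebraMap R L w * t) →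
      (∃ t ∈ Binf, e₂ ^ 2 - e₂ = algebraMap R L w * t) →
      (∃ t ∈ Bmid, e₁ - e₂ = algebraMap R L w * t) →
      ((∃ t ∈ Bfin, e₁ = algebraMap R L w * t) ∧ (∃ t ∈ Binf, e₂ = algebraMap R L w * t)) ∨
      ((∃ t ∈ Bfin, 1 - e₁ = algebraMap R L w * t) ∧
        (∃ t ∈ Binf, 1 - e₂ = algebraMap R L w * t)))
    (τ : L ≃+* L) (hτfin : ∀ b, b ∈ Bfin ↔ τ b ∈ Bfin) (hτinf : ∀ b, b ∈ Binf ↔ τ b ∈ Binf)
    (τS : S → S) (hτM : ∀ s b, b ∈ M s ↔ τ b ∈ M (τS s))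
    {C : Type*} (col : S → C) (h_col : ∀ s, col (τS s) = col s)
    (h_node_fin : ∀ s t, τS s = s → s ≠ t → ∀ 𝔫 : Ideal Bfin, 𝔫.IsMaximal →
      (∀ c : Bfin, (c : L) ∈ M s → c ∈ 𝔫) → (∀ c : Bfin, (c : L) ∈ M t → c ∈ 𝔫) →
      ∀ c : Bfin, c ∈ 𝔫 → ∀ h : τ.symm (c : L) ∈ Bfin, (⟨τ.symm (c : L), h⟩ : Bfin) ∈ 𝔫)
    (h_node_inf : ∀ s t, τS s = s → s ≠ t → ∀ 𝔫 : Ideal Binf, 𝔫.IsMaximal →
      (∀ c : Binf, (c : L) ∈ M s → c ∈ 𝔫) → (∀ c : Binf, (c : L) ∈ M t → c ∈ 𝔫) →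
      ∀ c : Binf, c ∈ 𝔫 → ∀ h : τ.symm (c : L) ∈ Binf, (⟨τ.symm (c : L), h⟩ : Binf) ∈ 𝔫)
    (h_uni_fin : ∀ 𝔫 : Ideal Bfin, 𝔫.IsMaximal → ∀ s t, col s = col t →
      (∀ c : Bfin, (c : L) ∈ M s → c ∈ 𝔫) → (∀ c : Bfin, (c : L) ∈ M t → c ∈ 𝔫) → s = t)
    (h_uni_inf : ∀ 𝔫 : Ideal Binf, 𝔫.IsMaximal → ∀ s t, col s = col t →
      (∀ c : Binf, (c : L) ∈ M s → c ∈ 𝔫) → (∀ c : Binf, (c : L) ∈ M t → c ∈ 𝔫) → s = t)
    (s₀ : S) (h₀ : τS s₀ = s₀) : ∀ s, τS s = s := by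
  have hsymm_fin : ∀ b ∈ Bfin, (τ.symm : L →+* L) b ∈ Bfin := by
    intro b hb
    rw [hτfin]
    simpa using hb
  have hsymm_inf : ∀ b ∈ Binf, (τ.symm : L →+* L) b ∈ Binf := by
    intro b hb
    rw [hτinf]
    simpa using hb
  let ρ₁ : Bfin →+* Bfin := RingHom.restrict (τ.symm : L →+* L) Bfin Bfin hsymm_fin
  let ρ₂ : Binf →+* Binf := RingHom.restrict (τ.symm : L →+* L) Binf Binf hsymm_inf
  have hρ₁ : ∀ b : Bfin, ((ρ₁ b : Bfin) : L) = τ.symm (b : L) := fun b => rfl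
  have hρ₂ : ∀ b : Binf, ((ρ₂ b : Binf) : L) = τ.symm (b : L) := fun b => rfl
  have hsurj₁ : Function.Surjective ρ₁ := by
    intro b
    refine ⟨⟨τ (b : L), (hτfin _).1 b.2⟩, Subtype.ext ?_⟩
    rw [hρ₁]
    simp
  have hsurj₂ : Function.Surjective ρ₂ := by
    intro b
    refine ⟨⟨τ (b : L), (hτinf _).1 b.2⟩, Subtype.ext ?_⟩
    rw [hρ₂]
    simp
  refine fixes_all_two_node ρ₁ hsurj₁ ρ₂ hsurj₂
    (fun s => chartIdeal Bfin (M s) (fun c hc => habs s c (hfm hc)))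
    (fun s => chartIdeal Binf (M s) (fun c hc => habs s c (him hc)))
    τS col ?_ ?_ h_col ?_ ?_ ?_ ?_ ?_ s₀ h₀
  · intro s b hb
    rw [mem_chartIdeal] at hb ⊢
    rw [hρ₁, hτM s]
    simpa using hb
  · intro s b hb
    rw [mem_chartIdeal] at hb ⊢
    rw [hρ₂, hτM s]
    simpa using hb
  · intro s t hs hst 𝔫 h𝔫 hsn htn b hb
    exact h_node_fin s t hs hst 𝔫 h𝔫 (fun c hc => hsn hc) (fun c hc => htn hc) b hb
      (hsymm_fin _ b.2)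
  · intro s t hs hst 𝔫 h𝔫 hsn htn b hb
    exact h_node_inf s t hs hst 𝔫 h𝔫 (fun c hc => hsn hc) (fun c hc => htn hc) b hb
      (hsymm_inf _ b.2)
  · intro 𝔫 h𝔫 s t hc hs ht
    exact h_uni_fin 𝔫 h𝔫 s t hc (fun c hcM => hs hcM) (fun c hcM => ht hcM)
  · intro 𝔫 h𝔫 s t hc hs ht
    exact h_uni_inf 𝔫 h𝔫 s t hc (fun c hcM => hs hcM) (fun c hcM => ht hcM)
  · intro s t
    refine Relation.ReflTransGen.mono ?_ _ _
      (sheetGraph_connected_sub w Bfin Binf Bmid M habs hfm him hM1 hwM hred_mid hred_fin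
        hred_inf hcech s t)
    rintro a b (h | h)
    · left
      rintro ⟨c, hc, d, hd, hcd⟩
      exact h ⟨c.1, c.2, hc, d.1, d.2, hd, congrArg Subtype.val hcd⟩
    · right
      rintro ⟨c, hc, d, hd, hcd⟩
      exact h ⟨c.1, c.2, hc, d.1, d.2, hd, congrArg Subtype.val hcd⟩

/-- **The Frobenius wall, field form.**  Under the hypotheses of `wallF_fixes` and
`A2.H12.wallG_comm`, for every Kummer generator `y` (each `σ ∈ Γ` multiplies `y` by a root of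
unity `ζ` with `φ̃ ζ = ζ ^ Q`) the quotient `φ̃ y / y ^ Q` is `Γ`-invariant. -/
theorem wallF [Fintype S] (w : R) (Bfin Binf Bmid : Subalgebra R L)
    (M : S → AddSubgroup L)
    (habs : ∀ s, ∀ c ∈ Bmid, ∀ a ∈ M s, c * a ∈ M s)
    (hfm : Bfin ≤ Bmid) (him : Binf ≤ Bmid)
    (hM1 : ∀ s, (1 : L) ∉ M s) (hwM : ∀ s, algebraMap R L w ∈ M s)
    (hred_mid : ∀ b ∈ Bmid, (∀ s, b ∈ M s) → ∃ t ∈ Bmid, b = algebraMap R L w * t)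
    (hred_fin : ∀ b ∈ Bfin, (∀ s, b ∈ M s) → ∃ t ∈ Bfin, b = algebraMap R L w * t)
    (hred_inf : ∀ b ∈ Binf, (∀ s, b ∈ M s) → ∃ t ∈ Binf, b = algebraMap R L w * t)
    (hcech : ∀ e₁ e₂ : L, e₁ ∈ Bfin → e₂ ∈ Binf →
      (∃ t ∈ Bfin, e₁ ^ 2 - e₁ = algebraMap R L w * t) →
      (∃ t ∈ Binf, e₂ ^ 2 - e₂ = algebraMap R L w * t) →
      (∃ t ∈ Bmid, e₁ - e₂ = algebraMap R L w * t) →
      ((∃ t ∈ Bfin, e₁ = algebraMap R L w * t) ∧ (∃ t ∈ Binf, e₂ = algebraMap R L w * t)) ∨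
      ((∃ t ∈ Bfin, 1 - e₁ = algebraMap R L w * t) ∧
        (∃ t ∈ Binf, 1 - e₂ = algebraMap R L w * t)))
    (τ : L ≃+* L) (hτfin : ∀ b, b ∈ Bfin ↔ τ b ∈ Bfin) (hτinf : ∀ b, b ∈ Binf ↔ τ b ∈ Binf)
    (hτM : ∀ s, ∃ s', ∀ b, b ∈ M s ↔ τ b ∈ M s')
    (hMinj : Function.Injective M)
    {C : Type*} (col : S → C)
    (h_col : ∀ s s', (∀ b, b ∈ M s ↔ τ b ∈ M s') → col s' = col s)
    (h_node_fin : ∀ s t, (∀ b, b ∈ M s ↔ τ b ∈ M s) → s ≠ t → ∀ 𝔫 : Ideal Bfin, 𝔫.IsMaximal →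
      (∀ c : Bfin, (c : L) ∈ M s → c ∈ 𝔫) → (∀ c : Bfin, (c : L) ∈ M t → c ∈ 𝔫) →
      ∀ c : Bfin, c ∈ 𝔫 → ∀ h : τ.symm (c : L) ∈ Bfin, (⟨τ.symm (c : L), h⟩ : Bfin) ∈ 𝔫)
    (h_node_inf : ∀ s t, (∀ b, b ∈ M s ↔ τ b ∈ M s) → s ≠ t → ∀ 𝔫 : Ideal Binf, 𝔫.IsMaximal →
      (∀ c : Binf, (c : L) ∈ M s → c ∈ 𝔫) → (∀ c : Binf, (c : L) ∈ M t → c ∈ 𝔫) →
      ∀ c : Binf, c ∈ 𝔫 → ∀ h : τ.symm (c : L) ∈ Binf, (⟨τ.symm (c : L), h⟩ : Binf) ∈ 𝔫)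
    (h_uni_fin : ∀ 𝔫 : Ideal Bfin, 𝔫.IsMaximal → ∀ s t, col s = col t →
      (∀ c : Bfin, (c : L) ∈ M s → c ∈ 𝔫) → (∀ c : Bfin, (c : L) ∈ M t → c ∈ 𝔫) → s = t)
    (h_uni_inf : ∀ 𝔫 : Ideal Binf, 𝔫.IsMaximal → ∀ s t, col s = col t →
      (∀ c : Binf, (c : L) ∈ M s → c ∈ 𝔫) → (∀ c : Binf, (c : L) ∈ M t → c ∈ 𝔫) → s = t)
    (s₀ : S) (h₀ : ∀ b, b ∈ M s₀ ↔ τ b ∈ M s₀)
    (Γ : Subgroup (L ≃+* L))
    (hΓM : ∀ σ ∈ Γ, ∀ s, ∃ s', ∀ b, b ∈ M s ↔ σ b ∈ M s')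
    (hfree : ∀ σ ∈ Γ, ∀ s, (∀ b, b ∈ M s ↔ σ b ∈ M s) → σ = 1)
    (hnorm : ∀ σ ∈ Γ, τ * σ * τ⁻¹ ∈ Γ)
    (y : L) (hy : y ≠ 0) (Q : ℕ) (hζ : ∀ σ ∈ Γ, ∃ ζ : L, σ y = ζ * y ∧ τ ζ = ζ ^ Q) :
    ∀ σ ∈ Γ, σ (τ y / y ^ Q) = τ y / y ^ Q := by
  choose τS hτS using hτM
  have huniq : ∀ s s', (∀ b, b ∈ M s ↔ τ b ∈ M s') → τS s = s' := by
    intro s s' h
    apply hMinj
    ext c
    have h1 := hτS s (τ.symm c)
    have h2 := h (τ.symm c)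
    simp only [RingEquiv.apply_symm_apply] at h1 h2
    rw [← h1, h2]
  have hfixiff : ∀ s, τS s = s → ∀ b, b ∈ M s ↔ τ b ∈ M s := by
    intro s hs c
    have := hτS s c
    rwa [hs] at this
  have hfix := wallF_fixes w Bfin Binf Bmid M habs hfm him hM1 hwM hred_mid hred_fin hred_inf
    hcech τ hτfin hτinf τS hτS col (fun s => h_col s (τS s) (hτS s))
    (fun s t hs hst => h_node_fin s t (hfixiff s hs) hst)
    (fun s t hs hst => h_node_inf s t (hfixiff s hs) hst)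
    h_uni_fin h_uni_inf s₀ (huniq s₀ s₀ h₀)
  have hall : ∀ s b, b ∈ M s ↔ τ b ∈ M s := fun s => hfixiff s (hfix s)
  have hcomm := wallG_comm M τ hall Γ hΓM hfree hnorm s₀
  exact kummer_of_commute_pow (Γ : Set (L ≃+* L)) τ y hy Q (fun g hg => hcomm g hg y)
    (fun g hg => hζ g hg)

end Val

end Fermat.Agent.S35.H891
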