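import Fermat.Agent.A2.H12.GAsm
import Fermat.Agent.S35.H891.DeckF

/-!
# S35, cell FROB — the ALG assembly for a Frobenius lift (helper891)

Variant of helper12's `A2.H12.algG_core` / `algG` for a semilinear automorphism `φ` of the
function field `F` which is NOT the identity on the residue fields of the sheets:

* `φ` preserves every sheet of `F` (`hφV`), fixes the coordinate `x`;
* `φ` maps every CROSSING point of the two base charts to itself (`NodesFixed`);
* `φ ζ = ζ ^ Q` for a primitive `m`-th root of unity `ζ ∈ R`.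

For a Kummer-split cover `L / F` satisfying the conclusions of the route-G leaves SHEETS, RED,
CONST, COUNT (these do not involve any automorphism) and `SurjConclusion` (the charts of `L` are
generated by the charts of `F` modulo every sheet), and a lift `φ'` of `φ` to `L`:

  `algF_core`, `algF` :  `φ g = z ^ m * g ^ Q`  for every `g ∈ F` having an `m`-th root in `L`.
-/

set_option autoImplicit false

namespace Fermat.Agent.S35.H891

open Polynomial
open Fermat.Agent.S18.H138 (chart baseField)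
open Fermat.Agent.A2.H12

universe u

section Defs

variable {R : Type u} [CommRing R] {F : Type u} [Field F] [Algebra R F]

/-- **FIX.**  The automorphism `φ` maps every crossing point of the chart `R[T]`-integral
closure (a closed point lying on two distinct sheets) into itself, for `T = {x}` and
`T = {x⁻¹}`.  (Stated for `φ⁻¹`; for closed points this is equivalent to `φ 𝔫 = 𝔫`.) -/
def NodesFixed (w : R) (x : F) (φ : F ≃+* F) : Prop :=
  ∀ T : Set F, T = {x} ∨ T = {x⁻¹} → ∀ 𝔫 : Ideal (chart R T), 𝔫.IsMaximal →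
    ∀ V V' : ValuationSubring F, IsSheet w x V → IsSheet w x V' → V ≠ V' →
      (∀ c : chart R T, (c : F) ∈ V.nonunits → c ∈ 𝔫) →
      (∀ c : chart R T, (c : F) ∈ V'.nonunits → c ∈ 𝔫) →
      ∀ c : chart R T, c ∈ 𝔫 → ∀ h : φ.symm (c : F) ∈ chart R T,
        (⟨φ.symm (c : F), h⟩ : chart R T) ∈ 𝔫

variable (L : Type u) [Field L] [Algebra F L] [Algebra R L] [IsScalarTower R F L]

/-- **SURJ.**  Modulo every sheet `W` of the cover `L`, the charts of `L` are generated by the
charts of `F` (the components of the special fibre of the cover map isomorphically onto the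
components of the base: residue degree one + the base components are normal). -/
def SurjConclusion (w : R) (x : F) : Prop :=
  ∀ W : ValuationSubring L, IsSheet w (algebraMap F L x) W →
    (∀ b ∈ chart R ({algebraMap F L x} : Set L), ∃ c ∈ chart R ({x} : Set F),
      b - algebraMap F L c ∈ W.nonunits) ∧
    (∀ b ∈ chart R ({(algebraMap F L x)⁻¹} : Set L), ∃ c ∈ chart R ({x⁻¹} : Set F),
      b - algebraMap F L c ∈ W.nonunits)

end Defs

section Charts

variable {R : Type u} [CommRing R] {F : Type u} [Field F] [Algebra R F]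
variable {L : Type u} [Field L] [Algebra F L] [Algebra R L] [IsScalarTower R F L]

theorem algebraMap_mem_adjoin_image {T : Set F} {a : F} (ha : a ∈ Algebra.adjoin R T) :
    algebraMap F L a ∈ Algebra.adjoin R (algebraMap F L '' T) := by
  induction ha using Algebra.adjoin_induction with
  | mem y hy => exact Algebra.subset_adjoin ⟨y, hy, rfl⟩
  | algebraMap r =>
    rw [← IsScalarTower.algebraMap_apply]
    exact Subalgebra.algebraMap_mem _ _
  | add y z _ _ hy hz => rw [map_add]; exact Subalgebra.add_mem _ hy hz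
  | mul y z _ _ hy hz => rw [map_mul]; exact Subalgebra.mul_mem _ hy hz

/-- The chart of `F` maps into the chart of `L`. -/
theorem algebraMap_mem_chart_image {T : Set F} {c : F} (hc : c ∈ chart R T) :
    algebraMap F L c ∈ chart R (algebraMap F L '' T) := by
  let φ : Algebra.adjoin R T →+* Algebra.adjoin R (algebraMap F L '' T) :=
    RingHom.restrict (algebraMap F L) _ _ (fun a ha => algebraMap_mem_adjoin_image ha)
  exact IsIntegral.map_of_comp_eq (R := Algebra.adjoin R T) (S := F)
    (T := Algebra.adjoin R (algebraMap F L '' T)) (U := L) φ (algebraMap F L) (by ext; rfl) hc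

theorem algebraMap_mem_chart_fin {x c : F} (hc : c ∈ chart R ({x} : Set F)) :
    algebraMap F L c ∈ chart R ({algebraMap F L x} : Set L) := by
  have := algebraMap_mem_chart_image (L := L) hc
  rwa [Set.image_singleton] at this

theorem algebraMap_mem_chart_inf {x c : F} (hc : c ∈ chart R ({x⁻¹} : Set F)) :
    algebraMap F L c ∈ chart R ({(algebraMap F L x)⁻¹} : Set L) := by
  have := algebraMap_mem_chart_image (L := L) hc
  rwa [Set.image_singleton, map_inv₀] at this

/-- The contraction of a maximal ideal of a chart of `L` to the chart of `F` is maximal. -/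
theorem isMaximal_comap_chart {TF : Set F} {TL : Set L} (hT : TL = algebraMap F L '' TF)
    (ι : chart R TF →+* chart R TL) (hι : ∀ c : chart R TF, ((ι c : chart R TL) : L) =
      algebraMap F L (c : F))
    (𝔫 : Ideal (chart R TL)) (h𝔫 : 𝔫.IsMaximal) : (𝔫.comap ι).IsMaximal := by
  subst hT
  have hint : ι.IsIntegral := by
    intro b
    have hb : IsIntegral (Algebra.adjoin R (algebraMap F L '' TF)) (b : L) := b.2
    obtain ⟨p, hpm, hp⟩ := hb
    -- the surjection `R[T_F] → R[T_L]`
    let ψ : Algebra.adjoin R TF →+* Algebra.adjoin R (algebraMap F L '' TF) :=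
      RingHom.restrict (algebraMap F L) _ _ (fun a ha => algebraMap_mem_adjoin_image ha)
    have hψ : Function.Surjective ψ := by
      rintro ⟨a, ha⟩
      induction ha using Algebra.adjoin_induction with
      | mem y hy =>
        obtain ⟨t, ht, rfl⟩ := hy
        exact ⟨⟨t, Algebra.subset_adjoin ht⟩, rfl⟩
      | algebraMap r =>
        refine ⟨algebraMap R _ r, Subtype.ext ?_⟩
        change algebraMap F L (algebraMap R F r) = algebraMap R L r
        rw [← IsScalarTower.algebraMap_apply]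
      | add y z hy' hz' hy hz =>
        obtain ⟨cy, hcy⟩ := hy
        obtain ⟨cz, hcz⟩ := hz
        refine ⟨cy + cz, ?_⟩
        rw [map_add, hcy, hcz]
        rfl
      | mul y z hy' hz' hy hz =>
        obtain ⟨cy, hcy⟩ := hy
        obtain ⟨cz, hcz⟩ := hz
        refine ⟨cy * cz, ?_⟩
        rw [map_mul, hcy, hcz]
        rfl
    have hpl : p ∈ Polynomial.lifts ψ := by
      rw [Polynomial.mem_lifts]
      exact Polynomial.map_surjective ψ hψ p
    obtain ⟨q₀, hq₀, -, hq₀m⟩ := Polynomial.lifts_and_degree_eq_and_monic hpl hpm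
    -- the inclusion `R[T_F] → chart_F`
    let j : Algebra.adjoin R TF →+* chart R TF :=
      (Subalgebra.inclusion (Fermat.Agent.S18.H138.adjoin_le_chart TF)).toRingHom
    refine ⟨q₀.map j, hq₀m.map j, ?_⟩
    apply Subtype.ext
    have h1 : ((Polynomial.eval₂ ι b (q₀.map j) : chart R (algebraMap F L '' TF)) : L) =
        Polynomial.eval₂ ((chart R (algebraMap F L '' TF)).val.toRingHom.comp ι) (b : L)
          (q₀.map j) :=
      Polynomial.hom_eval₂ (q₀.map j) ι ((chart R (algebraMap F L '' TF)).val.toRingHom) b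
    rw [h1, Polynomial.eval₂_map]
    have h2 : ((chart R (algebraMap F L '' TF)).val.toRingHom.comp ι).comp j =
        (algebraMap (Algebra.adjoin R (algebraMap F L '' TF)) L).comp ψ := by
      ext a
      change ((ι (j a) : chart R (algebraMap F L '' TF)) : L) = algebraMap F L (a : F)
      rw [hι]
      rfl
    rw [h2, ← Polynomial.eval₂_map, hq₀, hp]
    rfl
  have := h𝔫
  exact Ideal.isMaximal_comap_of_isIntegral_of_isMaximal' ι hint 𝔫

end Charts

section Asm

variable {R : Type u} [CommRing R] {F : Type u} [Field F] [Algebra R F]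
variable {L : Type u} [Field L] [Algebra F L] [Algebra R L] [IsScalarTower R F L]

/-- A semilinear automorphism fixing `x` preserves the charts of `F`. -/
theorem symm_mem_chart (x : F) (φ : F ≃+* F) (φR : R ≃+* R)
    (hφx : φ x = x) (hφR : ∀ r, φ (algebraMap R F r) = algebraMap R F (φR r))
    {T : Set F} (hT : T = {x} ∨ T = {x⁻¹}) {c : F} (hc : c ∈ chart R T) :
    φ.symm c ∈ chart R T := by
  have hxs : φ.symm x = x := by rw [RingEquiv.symm_apply_eq, hφx]
  refine chart_map_mem (T := T) (φ.symm : F →+* F) (fun r => ⟨φR.symm r, ?_⟩) ?_ hc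
  · change φ.symm (algebraMap R F r) = _
    rw [RingEquiv.symm_apply_eq, hφR, RingEquiv.apply_symm_apply]
  · intro t ht
    rcases hT with rfl | rfl
    · rw [Set.mem_singleton_iff] at ht
      subst ht
      change φ.symm t ∈ _
      rw [hxs]
      exact Algebra.subset_adjoin rfl
    · rw [Set.mem_singleton_iff] at ht
      subst ht
      change φ.symm x⁻¹ ∈ _
      rw [map_inv₀, hxs]
      exact Algebra.subset_adjoin rfl

/-- **The node step.**  A crossing point `𝔫` of the cover chart lying on a `φ'`-fixed sheet `W`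
is mapped into itself by `φ'⁻¹`. -/
theorem node_step (w : R) (x : F) (φ : F ≃+* F) (φR : R ≃+* R)
    (hφx : φ x = x) (hφR : ∀ r, φ (algebraMap R F r) = algebraMap R F (φR r))
    (hFix : NodesFixed w x φ)
    (φ' : L ≃+* L) (hφ' : ∀ f : F, φ' (algebraMap F L f) = algebraMap F L (φ f))
    (TF : Set F) (hTF : TF = {x} ∨ TF = {x⁻¹}) (TL : Set L) (hTL : TL = algebraMap F L '' TF)
    (hCount : CountAt L w x TL)
    (hφchart : ∀ b, b ∈ chart R TL ↔ φ' b ∈ chart R TL)
    (W W' : ValuationSubring L) (hW : IsSheet w (algebraMap F L x) W)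
    (hW' : IsSheet w (algebraMap F L x) W') (hne : W ≠ W')
    (hsurj : ∀ b ∈ chart R TL, ∃ c ∈ chart R TF, b - algebraMap F L c ∈ W.nonunits)
    (hWfix : ∀ b, b ∈ W.nonunits ↔ φ' b ∈ W.nonunits)
    (𝔫 : Ideal (chart R TL)) (h𝔫 : 𝔫.IsMaximal)
    (hWn : ∀ c : chart R TL, (c : L) ∈ W.nonunits → c ∈ 𝔫)
    (hW'n : ∀ c : chart R TL, (c : L) ∈ W'.nonunits → c ∈ 𝔫)
    (c : chart R TL) (hc : c ∈ 𝔫) (h : φ'.symm (c : L) ∈ chart R TL) :
    (⟨φ'.symm (c : L), h⟩ : chart R TL) ∈ 𝔫 := by
  have hmemL : ∀ c₀ : F, c₀ ∈ chart R TF → algebraMap F L c₀ ∈ chart R TL := by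
    intro c₀ hc₀
    rw [hTL]
    exact algebraMap_mem_chart_image hc₀
  -- the inclusion of charts
  let ι : chart R TF →+* chart R TL :=
    { toFun := fun c₀ => ⟨algebraMap F L (c₀ : F), hmemL _ c₀.2⟩
      map_one' := Subtype.ext (map_one _)
      map_mul' := fun a b => Subtype.ext (map_mul _ _ _)
      map_zero' := Subtype.ext (map_zero _)
      map_add' := fun a b => Subtype.ext (map_add _ _ _) }
  have hι : ∀ c₀ : chart R TF, ((ι c₀ : chart R TL) : L) = algebraMap F L (c₀ : F) :=
    fun _ => rfl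
  have hmax : (𝔫.comap ι).IsMaximal := isMaximal_comap_chart hTL ι hι 𝔫 h𝔫
  -- decompose `c`
  obtain ⟨c₀, hc₀, hc₀W⟩ := hsurj c c.2
  have ha : (c - ι ⟨c₀, hc₀⟩ : chart R TL) ∈ 𝔫 := hWn _ hc₀W
  have hc₀n : (⟨c₀, hc₀⟩ : chart R TF) ∈ 𝔫.comap ι := by
    rw [Ideal.mem_comap]
    have : ι ⟨c₀, hc₀⟩ = c - (c - ι ⟨c₀, hc₀⟩) := by ring
    rw [this]
    exact 𝔫.sub_mem hc ha
  -- the sheets below
  have hV := IsSheet.comap_algebraMap hW
  have hV' := IsSheet.comap_algebraMap hW'
  have hVne : W.comap (algebraMap F L) ≠ W'.comap (algebraMap F L) := fun hVV =>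
    hne (hCount 𝔫 h𝔫 W W' hW hW' hVV hWn hW'n)
  have hVn : ∀ d : chart R TF, (d : F) ∈ (W.comap (algebraMap F L)).nonunits →
      d ∈ 𝔫.comap ι := by
    intro d hd
    rw [Ideal.mem_comap]
    exact hWn _ ((mem_nonunits_comap W (algebraMap F L) _).1 hd)
  have hV'n : ∀ d : chart R TF, (d : F) ∈ (W'.comap (algebraMap F L)).nonunits →
      d ∈ 𝔫.comap ι := by
    intro d hd
    rw [Ideal.mem_comap]
    exact hW'n _ ((mem_nonunits_comap W' (algebraMap F L) _).1 hd)
  have hsymm₀ : φ.symm c₀ ∈ chart R TF := symm_mem_chart x φ φR hφx hφR hTF hc₀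
  have h1 := hFix TF hTF (𝔫.comap ι) hmax _ _ hV hV' hVne hVn hV'n ⟨c₀, hc₀⟩ hc₀n hsymm₀
  rw [Ideal.mem_comap] at h1
  -- the part in the sheet
  have hsymm_chart : ∀ b, b ∈ chart R TL → φ'.symm b ∈ chart R TL := by
    intro b hb
    rw [hφchart]
    simpa using hb
  have h2mem : φ'.symm ((c : L) - algebraMap F L c₀) ∈ chart R TL :=
    hsymm_chart _ (Subalgebra.sub_mem _ c.2 (hmemL _ hc₀))
  have h2 : (⟨φ'.symm ((c : L) - algebraMap F L c₀), h2mem⟩ : chart R TL) ∈ 𝔫 := by
    apply hWn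
    change φ'.symm ((c : L) - algebraMap F L c₀) ∈ W.nonunits
    rw [hWfix]
    simpa using hc₀W
  have h3 : (⟨φ'.symm (c : L), h⟩ : chart R TL) =
      ι ⟨φ.symm c₀, hsymm₀⟩ + ⟨φ'.symm ((c : L) - algebraMap F L c₀), h2mem⟩ := by
    apply Subtype.ext
    change φ'.symm (c : L) = algebraMap F L (φ.symm c₀) + φ'.symm ((c : L) - algebraMap F L c₀)
    rw [map_sub, lift_symm_algebraMap φ φ' hφ']
    ring
  rw [h3]
  exact 𝔫.add_mem h1 h2

/-- **Frobenius ALG core.**  Cover `L / F` with the leaf conclusions, lift `φ'` of `φ` fixing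
the sheet `W₀`: then `φ g / g ^ Q ∈ F ^ m` for every `g` with an `m`-th root in `L`. -/
theorem algF_core [IsDomain R] [IsNoetherianRing R] [IsIntegrallyClosed R[X]] [CharZero F]
    (w : R) (x : F) (m Q : ℕ) (φ : F ≃+* F) (φR : R ≃+* R)
    (hinj : Function.Injective (algebraMap R F)) (hx : Transcendental R x) (hw : Prime w)
    (hm : 0 < m) (hroot : ∃ ζ : R, IsPrimitiveRoot ζ m ∧ φR ζ = ζ ^ Q)
    (hφx : φ x = x) (hφR : ∀ r, φ (algebraMap R F r) = algebraMap R F (φR r))
    (hφw : ∀ r, w ∣ r ↔ w ∣ φR r)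
    (hφV : ∀ V : ValuationSubring F, IsSheet w x V → ∀ c : F, (c ∈ V ↔ φ c ∈ V))
    (hFix : NodesFixed w x φ)
    [FiniteDimensional F L] [IsGalois F L]
    (hS : SheetsConclusion L w x) (hRed : RedConclusion L w x)
    (hConst : ConstConclusion (R := R) L x) (hCount : CountConclusion L w x)
    (hSurj : SurjConclusion L w x)
    (φ' : L ≃+* L) (hφ' : ∀ f : F, φ' (algebraMap F L f) = algebraMap F L (φ f))
    (W₀ : ValuationSubring L) (hW₀ : IsSheet w (algebraMap F L x) W₀)
    (hfix : ∀ b, b ∈ W₀ ↔ φ' b ∈ W₀)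
    (g : F) (hg : g ≠ 0) (y : L) (hy : y ^ m = algebraMap F L g) :
    ∃ z : F, φ g = z ^ m * g ^ Q := by
  classical
  set xL : L := algebraMap F L x with hxL
  let S := ↥{W : ValuationSubring L | IsSheet w xL W}
  have : Fintype S := hS.finite.fintype
  let M : S → AddSubgroup L := fun s => s.1.nonunits.toAddSubgroup
  have hι : Function.Injective (algebraMap F L) := (algebraMap F L).injective
  have hinjL : Function.Injective (algebraMap R L) := by
    rw [IsScalarTower.algebraMap_eq R F L]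
    exact hι.comp hinj
  have : CharZero L := charZero_of_injective_algebraMap hι
  have := hConst.finite
  have hxLt : Transcendental R xL := (transcendental_algebraMap_iff hι).2 hx
  have hy0 : y ≠ 0 := by
    rintro rfl
    rw [zero_pow hm.ne'] at hy
    exact hg (hι (by rw [← hy, map_zero]))
  have hιg : algebraMap F L g ≠ 0 := fun h => hg (hι (by rw [h, map_zero]))
  -- roots of unity
  have hζ : ∀ σ ∈ galSubgroup F L, ∃ ζ : L, σ y = ζ * y ∧ φ' ζ = ζ ^ Q := by
    intro σ hσ
    obtain ⟨ζ₀, hζ₀, hφζ₀⟩ := hroot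
    have hprim : IsPrimitiveRoot (algebraMap R L ζ₀) m := hζ₀.map_of_injective hinjL
    have hpow : (σ y / y) ^ m = 1 := by
      rw [div_pow, ← map_pow, hy, hσ g, div_self hιg]
    have : NeZero m := ⟨hm.ne'⟩
    obtain ⟨i, -, hi⟩ := hprim.eq_pow_of_pow_eq_one hpow
    refine ⟨σ y / y, by field_simp, ?_⟩
    rw [← hi, map_pow, lift_algebraMap_R φ φR hφR φ' hφ', hφζ₀, map_pow, ← pow_mul, ← pow_mul,
      mul_comm]
  have hchart_fin := lift_chart_iff (L := L) x φ φR hφx hφR φ' hφ' {xL}
    (Set.singleton_subset_iff.2 (Or.inl rfl))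
  have hchart_inf := lift_chart_iff (L := L) x φ φR hφx hφR φ' hφ' {xL⁻¹}
    (Set.singleton_subset_iff.2 (Or.inr rfl))
  have key := wallF (R := R) (L := L) (S := S) w (chart R {xL}) (chart R {xL⁻¹})
    (chart R {xL, xL⁻¹}) M
    (fun s c hc a ha => mul_mem_nonunits s.1 ha (s.2.chart_le Set.Subset.rfl hc))
    (Fermat.Agent.S18.H138.chart_mono (Set.singleton_subset_iff.2 (Or.inl rfl)))
    (Fermat.Agent.S18.H138.chart_mono (Set.singleton_subset_iff.2 (Or.inr rfl)))
    (fun s => one_not_mem_nonunits s.1)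
    (fun s => s.2.2.2.1)
    (fun b hb h => hRed _ (Or.inr (Or.inr rfl)) b hb (fun W hW => h ⟨W, hW⟩))
    (fun b hb h => hRed _ (Or.inl rfl) b hb (fun W hW => h ⟨W, hW⟩))
    (fun b hb h => hRed _ (Or.inr (Or.inl rfl)) b hb (fun W hW => h ⟨W, hW⟩))
    (fun e₁ e₂ he₁ he₂ h1 h2 h12 =>
      Fermat.Agent.S18.H138.connected_special_fibre hinjL hConst.closed hxLt w hw e₁ e₂ he₁ he₂
        h1 h2 h12)
    φ' hchart_fin hchart_inf
    (fun s => ⟨⟨s.1.comap (φ'.symm : L →+* L), lift_isSheet w x φ φR hφx hφR hφw φ' hφ' s.2⟩,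
      fun b => by
        change b ∈ s.1.nonunits ↔ φ' b ∈ (s.1.comap (φ'.symm : L →+* L)).nonunits
        rw [mem_nonunits_comap]
        simp⟩)
    (fun s t hst => by
      apply Subtype.ext
      apply ValuationSubring.nonunits_injective
      ext b
      have := congrArg (fun A : AddSubgroup L => b ∈ A) hst
      exact iff_of_eq this)
    (col := fun s : S => s.1.comap (algebraMap F L))
    (fun s s' h => by
      have hmem := mem_iff_of_nonunits_iff φ' s.1 s'.1 h
      have hV := (IsSheet.comap_algebraMap s.2)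
      ext f
      have h1 := hmem (algebraMap F L (φ.symm f))
      rw [hφ', RingEquiv.apply_symm_apply] at h1
      have h2 := hφV _ hV (φ.symm f)
      rw [RingEquiv.apply_symm_apply] at h2
      rw [ValuationSubring.mem_comap, ← h1, ← ValuationSubring.mem_comap, h2])
    (fun s t hs hst 𝔫 h𝔫 hsn htn c hc h =>
      node_step w x φ φR hφx hφR hFix φ' hφ' {x} (Or.inl rfl) {xL}
        (by rw [Set.image_singleton]) hCount.1 hchart_fin s.1 t.1 s.2 t.2
        (fun hst' => hst (Subtype.ext hst')) (hSurj s.1 s.2).1 hs 𝔫 h𝔫 hsn htn c hc h)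
    (fun s t hs hst 𝔫 h𝔫 hsn htn c hc h =>
      node_step w x φ φR hφx hφR hFix φ' hφ' {x⁻¹} (Or.inr rfl) {xL⁻¹}
        (by rw [Set.image_singleton, map_inv₀]) hCount.2 hchart_inf s.1 t.1 s.2 t.2
        (fun hst' => hst (Subtype.ext hst')) (hSurj s.1 s.2).2 hs 𝔫 h𝔫 hsn htn c hc h)
    (fun 𝔫 h𝔫 s t hc hs ht => Subtype.ext (hCount.1 𝔫 h𝔫 s.1 t.1 s.2 t.2 hc hs ht))
    (fun 𝔫 h𝔫 s t hc hs ht => Subtype.ext (hCount.2 𝔫 h𝔫 s.1 t.1 s.2 t.2 hc hs ht))
    ⟨W₀, hW₀⟩ (nonunits_iff_of_mem_iff φ' W₀ W₀ hfix)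
    (galSubgroup F L)
    (fun σ hσ s => ⟨⟨s.1.comap (σ.symm : L →+* L), gal_isSheet w x σ hσ s.2⟩, fun b => by
        change b ∈ s.1.nonunits ↔ σ b ∈ (s.1.comap (σ.symm : L →+* L)).nonunits
        rw [mem_nonunits_comap]
        simp⟩)
    (fun σ hσ s h => by
      have hmem := mem_iff_of_nonunits_iff σ s.1 s.1 h
      have h1 := hS.free s.1 s.2 (AlgEquiv.ofRingEquiv (f := σ) hσ) hmem
      ext b
      have := congrArg (fun f : L ≃ₐ[F] L => f b) h1
      exact this)
    (fun σ hσ f => by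
      change φ' (σ (φ'.symm (algebraMap F L f))) = algebraMap F L f
      rw [lift_symm_algebraMap φ φ' hφ', hσ, hφ', RingEquiv.apply_symm_apply])
    y hy0 Q hζ
  -- conclusion
  have hz : φ' y / y ^ Q ∈ (⊥ : IntermediateField F L) := by
    rw [IsGalois.mem_bot_iff_fixed]
    intro f
    exact key (f : L ≃+* L) (fun c => f.commutes c)
  obtain ⟨z, hz⟩ := IntermediateField.mem_bot.1 hz
  refine ⟨z, hι ?_⟩
  have hyQ : y ^ Q ≠ 0 := pow_ne_zero _ hy0
  rw [map_mul, map_pow, map_pow, hz, div_pow, ← hy, ← pow_mul, ← pow_mul, mul_comm Q m,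
    div_mul_cancel₀ _ (pow_ne_zero _ hy0), ← map_pow, hy, hφ']

/-- **Frobenius ALG assembly.**  From the leaf conclusions SHEETS, RED, CONST, COUNT, SURJ (for
all Kummer-split covers of `F`) and a cover to which `φ` lifts (COVER): `φ g / g ^ Q` is an
`m`-th power in `F`. -/
theorem algF [IsDomain R] [IsNoetherianRing R] [IsIntegrallyClosed R[X]] [CharZero F]
    (w : R) (x : F) (m Q : ℕ) (φ : F ≃+* F) (φR : R ≃+* R)
    (hinj : Function.Injective (algebraMap R F)) (hx : Transcendental R x) (hw : Prime w)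
    (hm : 0 < m) (hroot : ∃ ζ : R, IsPrimitiveRoot ζ m ∧ φR ζ = ζ ^ Q)
    (hφx : φ x = x) (hφR : ∀ r, φ (algebraMap R F r) = algebraMap R F (φR r))
    (hφw : ∀ r, w ∣ r ↔ w ∣ φR r)
    (hφV : ∀ V : ValuationSubring F, IsSheet w x V → ∀ c : F, (c ∈ V ↔ φ c ∈ V))
    (hFix : NodesFixed w x φ)
    (hsheet : ∃ V : ValuationSubring F, IsSheet w x V)
    (hSheets : ∀ (L : Type u) [Field L] [Algebra F L] [Algebra R L] [IsScalarTower R F L],
      IsKummerSplit L w x m → SheetsConclusion L w x)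
    (hRed : ∀ (L : Type u) [Field L] [Algebra F L] [Algebra R L] [IsScalarTower R F L],
      IsKummerSplit L w x m → RedConclusion L w x)
    (hConst : ∀ (L : Type u) [Field L] [Algebra F L] [Algebra R L] [IsScalarTower R F L],
      IsKummerSplit L w x m → ConstConclusion (R := R) L x)
    (hCount : ∀ (L : Type u) [Field L] [Algebra F L] [Algebra R L] [IsScalarTower R F L],
      IsKummerSplit L w x m → CountConclusion L w x)
    (hSurj : ∀ (L : Type u) [Field L] [Algebra F L] [Algebra R L] [IsScalarTower R F L],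
      IsKummerSplit L w x m → SurjConclusion L w x)
    (g : F) (hg : g ≠ 0) (hCover : CoverConclusion w x m φ g) :
    ∃ z : F, φ g = z ^ m * g ^ Q := by
  obtain ⟨L, _, _, _, _, hKS, φ₀, y, hφ₀, hy⟩ := hCover
  have := hKS.finite
  have := hKS.galois
  have S1 := hSheets L hKS
  obtain ⟨V₀, hV₀⟩ := hsheet
  obtain ⟨W₀, hW₀, -⟩ := S1.exists_over V₀ hV₀
  have hW₁ : IsSheet w (algebraMap F L x) (W₀.comap (φ₀.symm : L →+* L)) :=
    lift_isSheet w x φ φR hφx hφR hφw φ₀ hφ₀ hW₀
  have hcol : (W₀.comap (φ₀.symm : L →+* L)).comap (algebraMap F L) =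
      W₀.comap (algebraMap F L) := by
    ext f
    have h2 := hφV _ (IsSheet.comap_algebraMap hW₀) (φ.symm f)
    rw [RingEquiv.apply_symm_apply] at h2
    rw [ValuationSubring.mem_comap, ValuationSubring.mem_comap]
    change φ₀.symm (algebraMap F L f) ∈ W₀ ↔ _
    rw [lift_symm_algebraMap φ φ₀ hφ₀, ← ValuationSubring.mem_comap, h2]
  obtain ⟨σ, hσ⟩ := S1.trans _ W₀ hW₁ hW₀ hcol
  refine algF_core (L := L) w x m Q φ φR hinj hx hw hm hroot hφx hφR hφw hφV hFix S1
    (hRed L hKS) (hConst L hKS) (hCount L hKS) (hSurj L hKS) (φ₀.trans (σ : L ≃+* L)) ?_ W₀ hW₀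
    ?_ g hg y hy
  · intro f
    change σ (φ₀ (algebraMap F L f)) = _
    rw [hφ₀, σ.commutes]
  · intro b
    change b ∈ W₀ ↔ σ (φ₀ b) ∈ W₀
    rw [← hσ, ValuationSubring.mem_comap]
    change _ ↔ φ₀.symm (φ₀ b) ∈ W₀
    rw [RingEquiv.symm_apply_apply]

end Asm

end Fermat.Agent.S35.H891
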