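/-
S35, piece (G') — v2 of the LEVEL assembly (helper891).

`Fermat/Agent/S35/G/SpecLevel.lean` (helper450, frozen) has a junk value in `PowV`
(`g = 0` is allowed: `0 ∈ V`, `0⁻¹ = 0 ∈ V`), which makes `G.AlgFrobStatement` false (audits of
helper373, helper433).  This file is the repaired level assembly:

* `PowVU`           : `PowV` with `g ≠ 0`;
* `ToricStatementU` : `G.ToricStatement` VERBATIM with `PowVU` (the leaf TORIC, v2);
* `levelFrob_of_partsU` : `G.levelFrob_of_parts` with `ToricStatementU`, and with the abstract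
  leaf ALG-FROB DISCHARGED by helper433's `H433.frobToricVal_of_leaves` and the closed ALG leaves
  of the wall A2 (all on main).  So ALG-FROB is no longer an input.

Unchanged leaves (statements of helper450): MODEL, NODE-RAT, STABLE, FROB-RES, COORD.
-/
import Fermat.Agent.S35.G.Top
import Fermat.Agent.S35.H433.ValForm
import Fermat.Agent.A2.Alg.H34.AlgSS
import Fermat.Agent.A2.Mod.H13.Frame
import Fermat.Agent.A2.Mod.H553.VzeroNe

set_option autoImplicit false
set_option linter.style.haveILetI false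
set_option linter.unusedSectionVars false
set_option synthInstance.maxHeartbeats 400000
set_option maxHeartbeats 1600000

noncomputable section

namespace Fermat.Agent.S35.H891

open ModularCurve AlgebraicCurve Fermat.Agent.S35.G

/-! ## Abstract part -/

section Abstract

variable {R F : Type*} [CommRing R] [Field F] [Algebra R F]

/-- `u ≡ g ^ m mod w V` for a unit `g ≠ 0` of `V`: the residue of `u` at `V` is an `m`-th power
of a unit. -/
def PowVU (w : R) (V : ValuationSubring F) (m : ℕ) (u : F) : Prop :=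
  ∃ g : F, g ≠ 0 ∧ g ∈ V ∧ g⁻¹ ∈ V ∧ (u - g ^ m) * (algebraMap R F w)⁻¹ ∈ V

theorem PowVU.powV {w : R} {V : ValuationSubring F} {m : ℕ} {u : F} (h : PowVU w V m u) :
    PowV w V m u := by
  obtain ⟨g, -, hg, hgi, hu⟩ := h
  exact ⟨g, hg, hgi, hu⟩

/-- `PowVU` gives helper433's `GSplitV` (with constant `1`). -/
theorem gSplitV_of_powVU {w : R} {V : ValuationSubring F} {m : ℕ} {u : F}
    (hw0 : algebraMap R F w ≠ 0) (hw : algebraMap R F w ∈ V.nonunits) (h : PowVU w V m u) :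
    Fermat.Agent.S35.H433.GSplitV R V m u := by
  obtain ⟨g, hg0, hg, hgi, hu⟩ := h
  refine ⟨g, hg0, hg, hgi, 1, isUnit_one, ?_⟩
  have e : u * (g ^ m)⁻¹ - algebraMap R F 1
      = ((u - g ^ m) * (algebraMap R F w)⁻¹) * (algebraMap R F w) * (g⁻¹) ^ m := by
    rw [map_one, inv_pow]
    field_simp
  rw [e, V.mem_nonunits_iff, map_mul, map_mul, map_pow]
  have h1 : V.valuation ((u - g ^ m) * (algebraMap R F w)⁻¹) ≤ 1 :=
    (V.valuation_le_one_iff _).2 hu
  have h2 : V.valuation (algebraMap R F w) < 1 := V.mem_nonunits_iff.1 hw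
  have h3 : V.valuation g⁻¹ ≤ 1 := (V.valuation_le_one_iff _).2 hgi
  have h4 : V.valuation g⁻¹ ^ m ≤ 1 := pow_le_one₀ zero_le h3
  calc V.valuation ((u - g ^ m) * (algebraMap R F w)⁻¹) * V.valuation (algebraMap R F w)
        * V.valuation g⁻¹ ^ m
      ≤ 1 * V.valuation (algebraMap R F w) * 1 :=
        mul_le_mul' (mul_le_mul' h1 le_rfl) h4
    _ < 1 := by rw [one_mul, mul_one]; exact h2

end Abstract

section Gauss

variable {R F : Type*} [CommRing R] [IsLocalRing R] [Field F] [Algebra R F]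

open Polynomial in
/-- A valuation ring inducing the Gauss valuation on `R[x]` satisfies helper433's `ValCtx`. -/
theorem valCtx_of_isGaussOver {w : R} (hw : w ∈ IsLocalRing.maximalIdeal R)
    (hw0 : algebraMap R F w ≠ 0) {x : F}
    {V : ValuationSubring F} (h : Fermat.Agent.A2.H489.IsGaussOver R V x) :
    Fermat.Agent.S35.H433.ValCtx w x V := by
  have hunit : ∀ P : R[X], P.map (IsLocalRing.residue R) ≠ 0 → (aeval x P)⁻¹ ∈ V := by
    intro P hP
    have h2 : aeval x P ∉ V.nonunits := fun hn => hP (h.prim P hn)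
    rw [ValuationSubring.mem_nonunits_iff_or] at h2
    push Not at h2
    exact h2.2
  have hX : (X : R[X]).map (IsLocalRing.residue R) ≠ 0 := by
    rw [Polynomial.map_X]
    exact X_ne_zero
  have hxi : x⁻¹ ∈ V := by
    have := hunit X hX
    rwa [aeval_X] at this
  refine ⟨h.isOver.mem, h.mem, hxi, ?_, ?_, ?_⟩
  · intro hwi
    have h1 := h.isOver.nonunit w hw
    rw [ValuationSubring.mem_nonunits_iff_or] at h1
    rcases h1 with h1 | h1
    · exact hw0 h1
    · exact h1 hwi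
  · intro r
    have hP : (X - C r : R[X]).map (IsLocalRing.residue R) ≠ 0 := by
      rw [Polynomial.map_sub, Polynomial.map_X, Polynomial.map_C]
      exact X_sub_C_ne_zero _
    have := hunit (X - C r) hP
    rwa [map_sub, aeval_X, aeval_C] at this
  · intro r
    have hP : (1 - C r * X : R[X]).map (IsLocalRing.residue R) ≠ 0 := by
      intro h0
      have := congrArg (fun p => Polynomial.coeff p 0) h0
      simp at this
    have h1 := hunit (1 - C r * X) hP
    rw [map_sub, map_one, map_mul, aeval_X, aeval_C] at h1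
    have hx0 : x ≠ 0 := by
      intro h0
      have h2 : aeval x (X : R[X]) ∈ V.nonunits := by
        rw [aeval_X, h0]
        exact V.mem_nonunits_iff.2 (by simp)
      exact hX (h.prim X h2)
    have e : (x⁻¹ - algebraMap R F r)⁻¹ = x * (1 - algebraMap R F r * x)⁻¹ := by
      have h3 : x⁻¹ - algebraMap R F r = (1 - algebraMap R F r * x) * x⁻¹ := by
        field_simp
      rw [h3, mul_inv, inv_inv, mul_comm]
    rw [e]
    exact V.mul_mem _ _ h.mem h1

end Gauss

/-! ## The leaf TORIC, v2 -/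

section Modular

variable (A : ValuationSubring Qb) (E : IntermediateField ℚ Qb) (M q m : ℕ) [NeZero M] [NeZero q]
  (w : A2.Mod.RE A E)

/-- **TORIC, v2** (`G.ToricStatement` VERBATIM, with `PowVU` instead of `PowV`).  If the norms of
`f` along `α` and `β` are constants times `m`-th powers, then the residues of `(ψ - 1)² f` at `V∞`
and at `V₀` are `m`-th powers of units. -/
def ToricStatementU : Prop :=
  A2.Mod.Setting A E M q w → A2.GoodField A E → 0 < m → ¬ q ∣ m →
    ∀ (V : ValuationSubring (A2.Mod.FE E (M * q)))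
      (W : A2.Mod.FE E (M * q) ≃ₐ[E] A2.Mod.FE E (M * q)),
      A2.Mod.IsVinf A E (M * q) V → A2.Mod.IsFricke E (M * q) W →
      ∀ (s : Qb ≃ₐ[ℚ] Qb) (hs : StableUnder E s), A.IsFrobeniusAt s q →
        ∀ f : A2.Mod.FE E (M * q), f ≠ 0 →
          NormPow (A2.Mod.αE E M q) m f → NormPow (A2.Mod.βE E M q) m f →
          PowVU w V m (frobSub (psiE E (M * q) s hs) 1 (frobSub (psiE E (M * q) s hs) 1 f)) ∧
          PowVU w (V.comap (W : A2.Mod.FE E (M * q) →+* A2.Mod.FE E (M * q))) m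
            (frobSub (psiE E (M * q) s hs) 1 (frobSub (psiE E (M * q) s hs) 1 f))

theorem toricStatement_of_U (h : ToricStatementU A E M q m w) : ToricStatement A E M q m w := by
  intro hS hE hm hqm V W hV hW s hs hsF f hf hα hβ
  obtain ⟨h1, h2⟩ := h hS hE hm hqm V W hV hW s hs hsF f hf hα hβ
  exact ⟨h1.powV, h2.powV⟩

end Modular

/-! ## The level statement from the modular inputs (ALG-FROB discharged) -/

section Inverse

variable (E : IntermediateField ℚ Qb)

theorem stableUnder_symm {s : Qb ≃ₐ[ℚ] Qb} (hs : StableUnder E s) : StableUnder E s.symm :=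
  fun e he => ⟨(hs e he).2, (hs e he).1⟩

theorem resE_symm_mul {s : Qb ≃ₐ[ℚ] Qb} (hs : StableUnder E s) :
    A2.Mod.resE E s.symm (stableUnder_symm E hs) * A2.Mod.resE E s hs = 1 := by
  apply AlgEquiv.ext
  intro e
  apply Subtype.ext
  show s.symm (s (e : Qb)) = (e : Qb)
  exact s.symm_apply_apply _

theorem actE_one_apply (N : ℕ) (f : A2.Mod.FE E N) : actE E N 1 f = f := by
  have h := congrArg SemilinearAut.toRingAut
    (map_one (arithmeticGalois (L := E) (modularFunctionFieldFull N)))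
  exact congrArg (fun φ : RingAut (A2.Mod.FE E N) => φ f) h

theorem actE_symm_actE (N : ℕ) {s : Qb ≃ₐ[ℚ] Qb} (hs : StableUnder E s) (f : A2.Mod.FE E N) :
    actE E N (A2.Mod.resE E s.symm (stableUnder_symm E hs)) (actE E N (A2.Mod.resE E s hs) f)
      = f := by
  rw [← actE_mul_apply, resE_symm_mul, actE_one_apply]

end Inverse

theorem levelFrob_of_partsU (A : ValuationSubring Qb) (E : IntermediateField ℚ Qb)
    (M q m : ℕ) [NeZero M] [NeZero q]
    (hq : q.Prime) (hqM : ¬ q ∣ M) (haux : HasAux M q) (hm : 0 < m) (hqm : ¬ q ∣ m)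
    (hMODEL : ∀ w, ModelStatement A E M q w)
    (hSTAB : StableStatement A E)
    (hNODE : ∀ w, NodeRatStatement A E M q w)
    (hTORIC : ∀ w, ToricStatementU A E M q m w)
    (hRES : FrobResStatement A E q)
    (hCOORD : CoordStatement E M q) :
    LevelFrobAt A E M q m := by
  intro hA hE s hs hsF y hy hdiv hNα hNβ
  haveI : IsDiscreteValuationRing ↥(A2.Mod.RE A E) := hE.dvr
  haveI : HenselianLocalRing ↥(A2.Mod.RE A E) := hE.henselian
  haveI : IsAlgClosed (IsLocalRing.ResidueField ↥(A2.Mod.RE A E)) := hE.algClosed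
  obtain ⟨w, hw⟩ := IsDiscreteValuationRing.exists_irreducible ↥(A2.Mod.RE A E)
  have hS : A2.Mod.Setting A E M q w :=
    { q_prime := hq
      q_not_dvd := hqM
      M_ne_zero := NeZero.ne M
      lies_over := hA
      dvr := hE.dvr
      unif := hw }
  obtain ⟨V, W, VM, hV, hW, hVM, hg1, hg2, hDeg, sf, si, cf, ci, hcf, hci⟩ :=
    hMODEL w hS hE haux
  obtain ⟨hx, hfr, hconst⟩ := hDeg hq hqM
  have hpos : 0 < Module.finrank
      (IntermediateField.adjoin E ({A2.Mod.xE E M q} : Set (A2.Mod.FE E (M * q))))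
      (A2.Mod.FE E (M * q)) := by
    rw [hfr]
    have h1 := A2.Mod.dedekindPsi_pos_of_ne_zero M (NeZero.ne M)
    positivity
  have hfin : FiniteDimensional
      (IntermediateField.adjoin E ({A2.Mod.xE E M q} : Set (A2.Mod.FE E (M * q))))
      (A2.Mod.FE E (M * q)) := Module.finite_of_finrank_pos hpos
  obtain ⟨ψR, hψR, hQ⟩ := hRES hA hq s hs hsF
  have hsD : s ∈ A.decompositionSubgroup ℚ := hsF.mem_decompositionSubgroup
  have hsD' : s.symm ∈ A.decompositionSubgroup ℚ := inv_mem hsD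
  have hN0 : M * q ≠ 0 := Nat.mul_ne_zero (NeZero.ne M) (NeZero.ne q)
  obtain ⟨hcomm, hσV⟩ := hSTAB (M * q) hN0 hE.dvr V W hV hW s hs hsD
  obtain ⟨hcomm', hσV'⟩ := hSTAB (M * q) hN0 hE.dvr V W hV hW s.symm (stableUnder_symm E hs) hsD'
  set V₀ : ValuationSubring (A2.Mod.FE E (M * q)) :=
    V.comap (W : A2.Mod.FE E (M * q) →+* A2.Mod.FE E (M * q)) with hV₀
  -- `ψ = σ ∘ σ`
  have hψσ : ∀ f : A2.Mod.FE E (M * q), psiE E (M * q) s hs f =
      actE E (M * q) (A2.Mod.resE E s hs) (actE E (M * q) (A2.Mod.resE E s hs) f) :=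
    fun f => actE_mul_apply E (M * q) _ _ f
  have hσiff : ∀ f : A2.Mod.FE E (M * q),
      actE E (M * q) (A2.Mod.resE E s hs) f ∈ V ↔ f ∈ V := by
    intro f
    refine ⟨fun h => ?_, fun h => hσV f h⟩
    have := hσV' _ h
    rwa [actE_symm_actE] at this
  have hσiff₀ : ∀ f : A2.Mod.FE E (M * q),
      actE E (M * q) (A2.Mod.resE E s hs) f ∈ V₀ ↔ f ∈ V₀ := by
    intro f
    show W (actE E (M * q) (A2.Mod.resE E s hs) f) ∈ V ↔ W f ∈ V
    rw [← hcomm]
    exact hσiff (W f)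
  have hψV : ∀ f : A2.Mod.FE E (M * q), psiE E (M * q) s hs f ∈ V ↔ f ∈ V := fun f => by
    rw [hψσ, hσiff, hσiff]
  have hψV₀ : ∀ f : A2.Mod.FE E (M * q), psiE E (M * q) s hs f ∈ V₀ ↔ f ∈ V₀ := fun f => by
    rw [hψσ, hσiff₀, hσiff₀]
  -- semilinearity
  have hψE : ∀ e : E, psiE E (M * q) s hs (algebraMap E (A2.Mod.FE E (M * q)) e) =
      algebraMap E (A2.Mod.FE E (M * q))
        ((A2.Mod.resE E s hs * A2.Mod.resE E s hs).toRingEquiv e) :=
    fun e => arithmeticRingAut_algebraMap (modularFunctionFieldFull (M * q)) _ e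
  have hψRE : ∀ r : ↥(A2.Mod.RE A E),
      (A2.Mod.resE E s hs * A2.Mod.resE E s hs).toRingEquiv (algebraMap ↥(A2.Mod.RE A E) E r) =
        algebraMap ↥(A2.Mod.RE A E) E (ψR r) := fun r => hψR r
  have hfrob : ∀ r : ↥(A2.Mod.RE A E), ∃ t : ↥(A2.Mod.RE A E), ψR r - r ^ (q ^ 2) = w * t := by
    intro r
    have h1 := hQ r
    rw [hw.maximalIdeal_eq, Ideal.mem_span_singleton] at h1
    exact h1
  -- the two valuation rings
  have hwm : w ∈ IsLocalRing.maximalIdeal ↥(A2.Mod.RE A E) :=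
    (IsLocalRing.mem_maximalIdeal w).2 hw.not_isUnit
  have hw0 : algebraMap ↥(A2.Mod.RE A E) (A2.Mod.FE E (M * q)) w ≠ 0 := by
    intro h0
    have h1 : algebraMap E (A2.Mod.FE E (M * q)) (w : E) = 0 := h0
    rw [map_eq_zero] at h1
    exact hw.ne_zero (Subtype.ext h1)
  have hG₁ := A2.Mod.H13.isGaussOver_xE hw hV hx
  have hG₂ := A2.Mod.H13.isGaussOver_comap_xE hw hV hW hx
  have hc₁ : Fermat.Agent.S35.H433.ValCtx w (A2.Mod.xE E M q) V :=
    valCtx_of_isGaussOver hwm hw0 hG₁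
  have hc₂ : Fermat.Agent.S35.H433.ValCtx w (A2.Mod.xE E M q) V₀ :=
    valCtx_of_isGaussOver hwm hw0 hG₂
  have hne : V ≠ V₀ := fun h => A2.Mod.H553.vzeroNe (P := A) (E := E) (M := M) (q := q) w hS V W hV hW h.symm
  -- the function `(ψ - 1)² y`
  set h₁ := frobSub (psiE E (M * q) s hs) 1 y with hh₁
  set h₂ := frobSub (psiE E (M * q) s hs) 1 h₁ with hh₂
  have hh₁0 : h₁ ≠ 0 := frobSub_ne_zero _ 1 hy
  have hh₂0 : h₂ ≠ 0 := frobSub_ne_zero _ 1 hh₁0
  have hd₁ : A2.DivisibleDiv E m h₁ := divisibleDiv_frobSub_one _ _ hψE m y hdiv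
  have hd₂ : A2.DivisibleDiv E m h₂ := divisibleDiv_frobSub_one _ _ hψE m h₁ hd₁
  obtain ⟨ht₁, ht₂⟩ := hTORIC w hS hE hm hqm V W hV hW s hs hsF y hy hNα hNβ
  have hnf := hNODE w hS hE VM V W hVM hV hW _ _ (Or.inl ⟨rfl, rfl⟩) hg1 cf
    hcf.cut₁ hcf.cut₂ s hs hsF
  have hni := hNODE w hS hE VM V W hVM hV hW _ _ (Or.inr ⟨rfl, rfl⟩) hg2 ci
    hci.cut₁ hci.cut₂ s hs hsF
  obtain ⟨z, hz, hzz⟩ :=
    Fermat.Agent.S35.H433.frobToricVal_of_leaves
      Fermat.Agent.A2.Alg.H754.puritySmoothLeaf Fermat.Agent.A2.Alg.H609.purityNodeLeaf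
      Fermat.Agent.A2.Alg.H34.glueLeaf
      (R := ↥(A2.Mod.RE A E)) (E := E) (F := ↥(A2.Mod.FE E (M * q)))
      w hw q m hq (A2.T1.H669.natCast_mem_maximalIdeal_RE E hA) hm hqm
      (A2.Mod.xE E M q) hx hfin hconst
      (A2.Mod.chartAlg A E (M * q) (A2.Mod.xE E M q))
      (A2.Mod.chartAlg A E (M * q) (A2.Mod.xE E M q)⁻¹)
      (fun _ => Iff.rfl) (fun _ => Iff.rfl) cf ci sf si V V₀ hc₁ hc₂ hne
      (psiE E (M * q) s hs) (A2.Mod.resE E s hs * A2.Mod.resE E s hs).toRingEquiv ψR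
      (q ^ 2) (pow_pos hq.pos 2) hψE hψRE hfrob (hCOORD _) hψV hψV₀
      (fun n hn h1 h2 b hb hb' => hnf n hn h1 h2 b hb ⟨_, hb'⟩ rfl)
      (fun n hn h1 h2 b hb hb' => hni n hn h1 h2 b hb ⟨_, hb'⟩ rfl)
      h₂ hh₂0 hd₂
      (gSplitV_of_powVU hw0 (hG₁.isOver.nonunit w hwm) ht₁)
      (gSplitV_of_powVU hw0 (hG₂.isOver.nonunit w hwm) ht₂)
  refine ⟨z, hz, ?_⟩
  show frobSub (psiE E (M * q) s hs) (q ^ 2) h₂ = z ^ m
  unfold frobSub
  rw [hzz, mul_assoc, mul_inv_cancel₀ (pow_ne_zero _ hh₂0), mul_one]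

end Fermat.Agent.S35.H891
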