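import Fermat.Agent.A2.H12.AlgLeaves
import Fermat.Agent.S35.H891.FrobAsm
import Fermat.Agent.S29.H395.KummerCorr
import Fermat.Prelude.Def_EllipticCurve_FrobeniusTrace

/-!
# S35, cell FROB — interfaces (helper891).  Definitions only, no `sorry`.

Plan: `coord/S35-FROB-helper891.md` (origin/helper891).  Notation: `N = M' * q`, `q ∤ M'`, `q ∤ m`,
`s` a Frobenius lift at a place `P ∣ q`, `φ = s²`, `Q = q²`.

* `FrobCtx`, `AlgFrobStatement`   : **FS**, the abstract theorem (language of `A2/Spec.lean` and of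
  route G, `A2/H12/GSpec.lean`): for a semilinear automorphism `φ` of the function field which
  induces `r ↦ r ^ Q` on the residue field of `R`, preserves the two sheets and fixes the crossing
  points of the two charts, every Kummer class `u` with `m ∣ div u` whose residues at the sheets are
  `m`-th powers satisfies `φ u = z ^ m * u ^ Q`.
* `SurjLeaf`, `CoverFLeaf`        : the two leaves which FS needs besides the route-G leaves
  `BaseLeaf`, `RootLeaf`, `SheetsLeaf`, `RedLeaf`, `ConstLeaf`, `CountLeaf` of `A2/H12/AlgLeaves.lean`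
  (`FrobLeaves.lean` : `algFrob_of_leaves`).
* `KummerQNewFrobStatement`       : **QNF**, Kummer form, in the modular function field `F̄_N`.
* `QNewFrobStatement`             : **QNF** on `JZero (M' * q)`:
  `(φ - Q)(φ - 1)² x = 0` for every `q`-new `x` of order prime to `q`.
  (The quartic relation `(φ - Q)(φ - 1) x = 0` of helper991 / helper433 implies it; the top glue
  `Top.lean` only needs the cubic one.)
-/

set_option autoImplicit false

noncomputable section

namespace Fermat.Agent.S35.H891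

open Fermat.Agent.A2 Fermat.Agent.A2.H12 ModularCurve AlgebraicCurve

/-! ## FS: the abstract Frobenius theorem -/

/-- The data and hypotheses of `AlgFrobStatement`: those of `A2.AlgSSStatement`, with the
inertia automorphism replaced by a Frobenius-type automorphism `φ`. -/
structure FrobCtx {R E F : Type} [CommRing R] [IsDomain R] [IsDiscreteValuationRing R]
    [HenselianLocalRing R] [IsAlgClosed (IsLocalRing.ResidueField R)]
    [Field E] [CharZero E] [Algebra R E] [IsFractionRing R E]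
    [Field F] [Algebra E F] [Algebra R F] [IsScalarTower R E F]
    (w : R) (q m Q : ℕ) (x : F) (Bf Bi : Subalgebra R F)
    (φ : F ≃+* F) (φE : E ≃+* E) (φR : R ≃+* R) : Prop where
  irr : Irreducible w
  qprime : q.Prime
  qmem : (q : R) ∈ IsLocalRing.maximalIdeal R
  mpos : 0 < m
  qm : ¬ q ∣ m
  transc : Transcendental E x
  fin : FiniteDimensional (IntermediateField.adjoin E ({x} : Set F)) F
  const : ∀ f : F, IsAlgebraic E f → f ∈ (algebraMap E F).range
  hBf : ∀ f : F, f ∈ Bf ↔ IsIntegral (Algebra.adjoin R ({x} : Set F)) f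
  hBi : ∀ f : F, f ∈ Bi ↔ IsIntegral (Algebra.adjoin R ({x⁻¹} : Set F)) f
  cf : Nonempty (SSChart w Bf)
  ci : Nonempty (SSChart w Bi)
  sf : SepCoord R E x Bf
  si : SepCoord R E x⁻¹ Bi
  hφE : ∀ e : E, φ (algebraMap E F e) = algebraMap E F (φE e)
  hφR : ∀ r : R, φE (algebraMap R E r) = algebraMap R E (φR r)
  hφx : φ x = x
  /-- `φ` induces `r ↦ r ^ Q` on the residue field of `R` -/
  hfrob : ∀ r : R, w ∣ φR r - r ^ Q
  /-- `φ` preserves every sheet (= every component of the special fibre) -/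
  hsheet : ∀ V : ValuationSubring F, IsSheet w x V → ∀ c : F, c ∈ V ↔ φ c ∈ V
  /-- `φ` fixes the crossing points of both charts -/
  hnodes : NodesFixed w x φ

/-- **FS (interface statement).** -/
def AlgFrobStatement : Prop :=
  ∀ {R E F : Type} [CommRing R] [IsDomain R] [IsDiscreteValuationRing R]
    [HenselianLocalRing R] [IsAlgClosed (IsLocalRing.ResidueField R)]
    [Field E] [CharZero E] [Algebra R E] [IsFractionRing R E]
    [Field F] [Algebra E F] [Algebra R F] [IsScalarTower R E F]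
    (w : R) (q m Q : ℕ) (x : F) (Bf Bi : Subalgebra R F)
    (φ : F ≃+* F) (φE : E ≃+* E) (φR : R ≃+* R),
    FrobCtx w q m Q x Bf Bi φ φE φR →
    ∀ u : F, u ≠ 0 → DivisibleDiv E m u →
      (∀ V : ValuationSubring F, IsSheet w x V → SplitAt m V u) →
      (∃ r : ℕ, 0 < r ∧ (φ ^ r) u = u) →
      ∃ z : F, z ≠ 0 ∧ φ u = z ^ m * u ^ Q

/-- Leaf **SURJ**: for every Kummer-split cover, the charts of the cover are generated by the
charts of the base modulo every sheet. -/
def SurjLeaf : Prop :=
  ∀ {R E F : Type} [CommRing R] [IsDomain R] [IsDiscreteValuationRing R]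
    [HenselianLocalRing R] [IsAlgClosed (IsLocalRing.ResidueField R)]
    [Field E] [CharZero E] [Algebra R E] [IsFractionRing R E]
    [Field F] [Algebra E F] [Algebra R F] [IsScalarTower R E F]
    (w : R) (q m : ℕ) (x : F) (Bf Bi : Subalgebra R F)
    (τ : F ≃+* F) (τE : E ≃+* E) (τR : R ≃+* R),
    SSCtx w q m x Bf Bi τ τE τR →
    ∀ (L : Type) [Field L] [Algebra F L] [Algebra R L] [IsScalarTower R F L],
      IsKummerSplit L w x m → SurjConclusion L w x

/-- Leaf **COVER-F**: a Kummer-split cover containing an `m`-th root of `g` to which `φ` lifts,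
for `g` with a finite `φ`-orbit (`φ` itself has infinite order). -/
def CoverFLeaf : Prop :=
  ∀ {R F : Type} [CommRing R] [Field F] [CharZero F] [Algebra R F]
    (w : R) (x : F) (m : ℕ) (φ : F ≃+* F) (φR : R ≃+* R),
    Function.Injective (algebraMap R F) → 0 < m → (∃ ζ : R, IsPrimitiveRoot ζ m) →
    φ x = x → (∀ r, φ (algebraMap R F r) = algebraMap R F (φR r)) → (∀ r, w ∣ r ↔ w ∣ φR r) →
    ∀ (r : ℕ), 0 < r → ∀ g : F, (φ ^ r) g = g → g ≠ 0 → HorDiv R m g →
      (∀ V : ValuationSubring F, IsSheet w x V → SplitAt m V g) →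
      CoverConclusion w x m φ g

/-! ## QNF: the theorem on the modular curve -/

/-- `φ = s²` on the modular function field `F̄_N`. -/
abbrev actSq (N : ℕ) (s : Qb ≃ₐ[ℚ] Qb) (f : modularFunctionFieldBar N) :
    modularFunctionFieldBar N :=
  act N s (act N s f)

/-- **QNF, Kummer form.**  `N = M' * q`.  If `m ∣ div f` and both norms `N_α f`, `N_β f` are
`m`-th powers in `F̄_{M'}` (the class of `f` is `q`-new), then
`φ³ f · (φ f) ^ (1 + 2Q) = h ^ m · (φ² f) ^ (2 + Q) · f ^ Q`, `φ = s²`, `Q = q²`. -/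
def KummerQNewFrobStatement : Prop :=
  ∀ (M' q m : ℕ) [NeZero M'] [NeZero q], q.Prime → ¬ q ∣ M' → 0 < m → ¬ q ∣ m →
    ∀ P : ValuationSubring Qb, P.LiesOverPrime q →
    ∀ s : Qb ≃ₐ[ℚ] Qb, P.IsFrobeniusAt s q →
    ∀ f : modularFunctionFieldBar (M' * q), f ≠ 0 →
      (∀ v : Place Qb (modularFunctionFieldBar (M' * q)), (m : ℤ) ∣ v.ord f) →
      (∃ h : modularFunctionFieldBar M', h ≠ 0 ∧
        Fermat.Agent.S29.H395.normAlong (heckeAlphaBar Qb M' q) f = h ^ m) →
      (∃ h : modularFunctionFieldBar M', h ≠ 0 ∧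
        Fermat.Agent.S29.H395.normAlong (heckeBetaBar Qb M' q) f = h ^ m) →
      ∃ h : modularFunctionFieldBar (M' * q), h ≠ 0 ∧
        actSq (M' * q) s (actSq (M' * q) s (actSq (M' * q) s f)) *
            actSq (M' * q) s f ^ (1 + 2 * q ^ 2) =
          h ^ m * actSq (M' * q) s (actSq (M' * q) s f) ^ (2 + q ^ 2) * f ^ (q ^ 2)

/-- `x ∈ J₀(M' q)` is `q`-new: it is the class of a divisor of degree `0` both of whose
pushforwards to level `M'` are principal. -/
def IsQNew (M' q : ℕ) [NeZero M'] [NeZero q] (x : JZero (M' * q)) : Prop :=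
  ∃ (hα : HeckeAlphaBarIntegral Qb M' q) (hβ : HeckeBetaBarIntegral Qb M' q)
    (D : Divisor.degZero (K := Qb) (F := modularFunctionFieldBar (M' * q))),
    Pic0.mk D = x ∧
      (Divisor.pushforwardAlong (heckeAlphaBar Qb M' q) hα (D : Divisor Qb _)).IsPrincipal ∧
      (Divisor.pushforwardAlong (heckeBetaBar Qb M' q) hβ (D : Divisor Qb _)).IsPrincipal

/-- **QNF.**  `(φ - Q)(φ - 1)² x = 0` for every `q`-new `x ∈ J₀(M' q)[m]`, `φ = s²`, `Q = q²`:
`φ³ x + (1 + 2Q) φ x = (2 + Q) φ² x + Q x`. -/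
def QNewFrobStatement : Prop :=
  ∀ (M' q m : ℕ) [NeZero M'] [NeZero q], q.Prime → ¬ q ∣ M' → 0 < m → ¬ q ∣ m →
    ∀ P : ValuationSubring Qb, P.LiesOverPrime q →
    ∀ s : Qb ≃ₐ[ℚ] Qb, P.IsFrobeniusAt s q →
    ∀ x : JZero (M' * q), m • x = 0 → IsQNew M' q x →
      s • s • s • s • s • s • x + (1 + 2 * q ^ 2) • (s • s • x) =
        (2 + q ^ 2) • (s • s • s • s • x) + q ^ 2 • x

end Fermat.Agent.S35.H891
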