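/-
S35 (helper891): from the interface statement `QNewFrobStatement` of `S35/H891/Spec.lean`
(level `M' * q`, divisor form of "`q`-new") to `NewPartFrob3Statement` (level `M`, `q ∥ M`,
kernel of the two degeneracy push-forwards of helper155), and the frozen statement S35 from the
six inputs of row S30, `QNewFrobStatement` and `ExclTateStatement`.
-/
import Fermat.Agent.S35.H891.Wired3
import Fermat.Agent.S35.H155.B2Spec

set_option autoImplicit false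

namespace Fermat.Agent.S35.H891

open Fermat.Agent.S35.H155

/-- `QNewFrobStatement` at level `M' * q`, with target level `K = M'`. -/
theorem newPartFrob3At_of_qNew (h : QNewFrobStatement) (M' q K : ℕ) (hK : K = M')
    [NeZero (M' * q)] [NeZero K] (hq : q.Prime) (hqM' : ¬ q ∣ M') :
    NewPartFrob3At (M' * q) K q := by
  subst hK
  haveI : NeZero q := ⟨hq.ne_zero⟩
  refine ⟨pushA K q, pushB K q, pushA_galois K q, pushB_galois K q, ?_⟩
  intro A hA σ hσ m hm x hx ha hb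
  have hm0 : 0 < m := Nat.pos_of_ne_zero (fun h0 => hm (h0 ▸ dvd_zero q))
  exact h K q m hq hqM' hm0 hm A hA σ hσ x hx ((isQNew_iff_spec K q x).mpr ⟨ha, hb⟩)

/-- **`QNewFrobStatement ⟹ NewPartFrob3Statement`**, with `a = α_*`, `b = β_*`. -/
theorem newPartFrob3_of_qNew (h : QNewFrobStatement) : NewPartFrob3Statement := by
  intro M q instM instMq hq hqM hq2
  obtain ⟨M', rfl⟩ : ∃ M', M = M' * q := ⟨M / q, (Nat.div_mul_cancel hqM).symm⟩
  have hM' : M' * q / q = M' := Nat.mul_div_cancel M' hq.pos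
  have hqM' : ¬ q ∣ M' := fun hd => hq2 (by
    rw [pow_two]
    exact Nat.mul_dvd_mul hd (dvd_refl q))
  exact newPartFrob3At_of_qNew h M' q (M' * q / q) hM' hq hqM'

/-- **The frozen statement S35** from the six inputs of row S30, `QNewFrobStatement` (cell FROB)
and `ExclTateStatement` (cell X). -/
theorem result_of_qNew
    (hfin : ∀ (N p : ℕ) [NeZero N], p.Prime →
      Finite {x : ModularCurve.JZero N // (p : ℤ) • x = 0})
    (hsm : ∀ (N p : ℕ) [NeZero N], ∀ x : ModularCurve.JZero N,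
      (∃ n : ℕ, ((p : ℤ) ^ n) • x = 0) →
        ∃ L : IntermediateField ℚ (AlgebraicClosure ℚ), FiniteDimensional ℚ L ∧
          ∀ σ : S30.H990.GQ, (∀ y ∈ L, σ y = y) → σ • x = x)
    (hgeq : ∀ (N : ℕ) [NeZero N] (ℓ : Nat.Primes) (σ : S30.H990.GQ) (x : ModularCurve.JZero N),
      ModularCurve.heckeOperatorBar N ℓ (σ • x) = σ • ModularCurve.heckeOperatorBar N ℓ x)
    (hunr : ∀ (N p : ℕ) [NeZero N], ∀ q : ℕ, q.Prime → ¬ q ∣ N * p →
      ∀ A : ValuationSubring (AlgebraicClosure ℚ), A.LiesOverPrime q →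
        ∀ σ ∈ A.inertiaSubgroupIn ℚ, ∀ x : ModularCurve.JZero N,
          (∃ n : ℕ, ((p : ℤ) ^ n) • x = 0) → σ • x = x)
    (hes : ∀ (N p : ℕ) [NeZero N], ∀ (ℓ : ℕ) (hℓ : ℓ.Prime), ¬ ℓ ∣ N * p →
      ∀ A : ValuationSubring (AlgebraicClosure ℚ), A.LiesOverPrime ℓ →
        ∀ σ : S30.H990.GQ, A.IsFrobeniusAt σ ℓ → ∀ x : ModularCurve.JZero N,
          (∃ n : ℕ, ((p : ℤ) ^ n) • x = 0) →
            σ • σ • x - ModularCurve.heckeOperatorBar N ⟨ℓ, hℓ⟩ (σ • x) + (ℓ : ℤ) • x = 0)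
    (hlat : ∀ (N p : ℕ) [NeZero N], p.Prime →
      ∃ (Λ : Type) (_ : AddCommGroup Λ) (_ : Module.Free ℤ Λ) (_ : Module.Finite ℤ Λ)
        (TΛ : Nat.Primes → Λ →ₗ[ℤ] Λ) (κ : ℕ → Λ →ₗ[ℤ] ModularCurve.JZero N),
        (∀ (n : ℕ) (x : Λ), κ n x = 0 ↔ ∃ y : Λ, x = ((p : ℤ) ^ n) • y) ∧
        (∀ (n : ℕ) (x : Λ), (p : ℤ) • κ (n + 1) x = κ n x) ∧
        (∀ ℓ : Nat.Primes, ¬ (ℓ : ℕ) ∣ N * p → ∀ (n : ℕ) (x : Λ),
          κ n (TΛ ℓ x) = ModularCurve.heckeOperatorBar N ℓ (κ n x)) ∧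
        (∀ (S : Set ℕ) (R : Type) [CommRing R] [IsDomain R] [CharZero R]
          (χ : CuspForm.heckeAlgebra N 2 S →+* R),
          ∃ v : TensorProduct ℤ R Λ, v ≠ 0 ∧
            ∀ (ℓ : ℕ) (hℓ : ℓ.Prime) (hℓN : ¬ ℓ ∣ N) (hℓS : ℓ ∉ S),
              (TΛ ⟨ℓ, hℓ⟩).baseChange R v = χ (CuspForm.heckeAlgebra.T hℓ hℓN hℓS) • v))
    (hQ : QNewFrobStatement) (hX : Fermat.Agent.S35.H991.ExclTateStatement)
    {M : ℕ} [NeZero M] {g : CuspForm (CongruenceSubgroup.Gamma0 M) 2} (hg : g.IsNewform)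
    (lam : ℕ) [Fact lam.Prime]
    (S : Finset ℕ)
    (O' : Type) [CommRing O'] [IsDomain O'] [IsDiscreteValuationRing O']
    [IsAdicComplete (IsLocalRing.maximalIdeal O') O'] [Finite (IsLocalRing.ResidueField O')]
    [CharZero O'] (hlamO' : (lam : O') ∈ IsLocalRing.maximalIdeal O')
    (chig : CuspForm.heckeAlgebra M 2 (↑S : Set ℕ) →+* ℂ)
    (hchig : ∀ (ℓ : ℕ) (hℓ : ℓ.Prime) (hℓM : ¬ ℓ ∣ M) (hℓS : ℓ ∉ (↑S : Set ℕ)),
      chig (CuspForm.heckeAlgebra.T hℓ hℓM hℓS) = ModularFormClass.qCoeff g ℓ)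
    (iota : chig.range →+* O')
    (hlamS : lam ∈ S) (hMS : ∀ q : ℕ, q.Prime → q ∣ M → q ∈ S) :
    ∃ (O'' : Type) (_ : CommRing O'') (_ : IsDomain O'') (_ : IsDiscreteValuationRing O'')
      (_ : IsAdicComplete (IsLocalRing.maximalIdeal O'') O'') (_ : Finite (IsLocalRing.ResidueField O''))
      (_ : CharZero O'') (_ : Algebra O' O'') (_ : Module.Finite O' O'') (_ : IsLocalHom (algebraMap O' O'')),
      Function.Injective (algebraMap O' O'') ∧
      ∃ ρ : GaloisRepAdic O'',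
        (∀ (ℓ : ℕ) (hℓ : ℓ.Prime) (hℓM : ¬ ℓ ∣ M) (hℓS : ℓ ∉ (↑S : Set ℕ)),
          ∀ A : ValuationSubring (AlgebraicClosure ℚ), A.LiesOverPrime ℓ →
            ∀ σ : AlgebraicClosure ℚ ≃ₐ[ℚ] AlgebraicClosure ℚ, A.IsFrobeniusAt σ ℓ →
              LinearMap.charpoly (ρ.ρ σ) =
                Polynomial.X ^ 2 - Polynomial.C (algebraMap O' O'' ((iota.comp chig.rangeRestrict) (CuspForm.heckeAlgebra.T hℓ hℓM hℓS))) * Polynomial.X
                  + Polynomial.C ((ℓ : O''))) ∧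
        (∀ q : ℕ, q.Prime → q ≠ lam → q ∣ M → ¬ q ^ 2 ∣ M →
          ∀ A : ValuationSubring (AlgebraicClosure ℚ), A.LiesOverPrime q →
            ∀ σ : AlgebraicClosure ℚ ≃ₐ[ℚ] AlgebraicClosure ℚ, A.IsFrobeniusAt σ q →
              LinearMap.charpoly (ρ.ρ σ) = Polynomial.X ^ 2 - Polynomial.C ((q : O'') + 1) * Polynomial.X + Polynomial.C ((q : O'')) ∨
              LinearMap.charpoly (ρ.ρ σ) = Polynomial.X ^ 2 + Polynomial.C ((q : O'') + 1) * Polynomial.X + Polynomial.C ((q : O''))) :=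
  result_of_cubic hfin hsm hgeq hunr hes hlat (newPartFrob3_of_qNew hQ) hX
    hg lam S O' hlamO' chig hchig iota hlamS hMS

end Fermat.Agent.S35.H891
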