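/-
S35 top glue for the CUBIC relation, pure algebra (helper891).  Mathlib only.

`trace_of_cubicFrob` : on a nontrivial torsion-free module over a domain in which `q ≠ 0`, an
endomorphism `s` with `s² - a s + q = 0` and `(s² - q²)(s² - 1)² = 0` has `a = ± (q + 1)`.
`quartic_of_cubicFrob` : hence `(s² - 1)(s² - q²) = 0`.
-/
import Mathlib

set_option autoImplicit false

namespace Fermat.Agent.S35.H891

section

variable {𝒪 M : Type*} [CommRing 𝒪] [IsDomain 𝒪] [AddCommGroup M] [Module 𝒪 M]
  [Module.IsTorsionFree 𝒪 M]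

/-- The cubic bad-Frobenius relation `(φ - q²)(φ - 1)² = 0`, `φ = s²`, applied to vectors:
`φ³ v - (2 + q²) φ² v + (1 + 2 q²) φ v - q² v = 0`. -/
def CubicFrobRel (q : 𝒪) (s : Module.End 𝒪 M) : Prop :=
  ∀ v : M, s (s (s (s (s (s v))))) - (2 + q ^ 2) • s (s (s (s v))) + (1 + 2 * q ^ 2) • s (s v)
    - (q ^ 2) • v = 0

/-- An eigenvector of `s` for the eigenvalue `c` forces `c² - a c + q = 0`. -/
theorem quad_of_eigenvector {q a c : 𝒪} {s : Module.End 𝒪 M}
    (hrel : ∀ v : M, s (s v) - a • s v + q • v = 0) {v : M} (hv : v ≠ 0) (hsv : s v = c • v) :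
    c * c - a * c + q = 0 := by
  have h := hrel v
  rw [hsv, map_smul, hsv, smul_smul, smul_smul, ← sub_smul, ← add_smul] at h
  rcases smul_eq_zero.mp h with h0 | h0
  · exact h0
  · exact absurd h0 hv

/-- **Algebraic core.**  A quadratic relation with constant term `q` together with the cubic
bad-Frobenius relation pins the trace down to `± (q + 1)`. -/
theorem trace_of_cubicFrob [Nontrivial M] {q a : 𝒪} (hq : q ≠ 0) {s : Module.End 𝒪 M}
    (hrel : ∀ v : M, s (s v) - a • s v + q • v = 0) (hcub : CubicFrobRel q s) :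
    a = q + 1 ∨ a = -(q + 1) := by
  obtain ⟨v, hv⟩ := exists_ne (0 : M)
  -- eigenvalue cases
  have case_one : ∀ u : M, u ≠ 0 → s u - u = 0 → a = q + 1 ∨ a = -(q + 1) := by
    intro u hu h
    have hsu : s u = (1 : 𝒪) • u := by rw [one_smul]; exact sub_eq_zero.mp h
    have := quad_of_eigenvector hrel hu hsu
    left
    linear_combination -this
  have case_neg_one : ∀ u : M, u ≠ 0 → s u + u = 0 → a = q + 1 ∨ a = -(q + 1) := by
    intro u hu h
    have hsu : s u = (-1 : 𝒪) • u := by
      rw [neg_smul, one_smul]; exact eq_neg_of_add_eq_zero_left h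
    have := quad_of_eigenvector hrel hu hsu
    right
    linear_combination this
  have case_q : ∀ u : M, u ≠ 0 → s u - q • u = 0 → a = q + 1 ∨ a = -(q + 1) := by
    intro u hu h
    have hsu : s u = q • u := sub_eq_zero.mp h
    have := quad_of_eigenvector hrel hu hsu
    left
    have h5 : q * (q - a + 1) = 0 := by linear_combination this
    rcases mul_eq_zero.mp h5 with h6 | h6
    · exact absurd h6 hq
    · linear_combination -h6
  have case_neg_q : ∀ u : M, u ≠ 0 → s u + q • u = 0 → a = q + 1 ∨ a = -(q + 1) := by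
    intro u hu h
    have hsu : s u = (-q) • u := by
      rw [neg_smul]; exact eq_neg_of_add_eq_zero_left h
    have := quad_of_eigenvector hrel hu hsu
    right
    have h5 : q * (q + a + 1) = 0 := by linear_combination this
    rcases mul_eq_zero.mp h5 with h6 | h6
    · exact absurd h6 hq
    · linear_combination h6
  -- the six factors `(s+1)(s+1)(s-1)(s-1)(s+q)(s-q)`
  set v₁ : M := s v + v with hv₁
  set v₂ : M := s v₁ + v₁ with hv₂
  set v₃ : M := s v₂ - v₂ with hv₃
  set v₄ : M := s v₃ - v₃ with hv₄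
  set v₅ : M := s v₄ + q • v₄ with hv₅
  have h6 : s v₅ - q • v₅ = 0 := by
    have := hcub v
    rw [hv₅, hv₄, hv₃, hv₂, hv₁]
    simp only [map_add, map_sub, map_smul]
    rw [← this]
    module
  by_cases h1 : v₁ = 0
  · exact case_neg_one v hv (by rw [← hv₁]; exact h1)
  by_cases h2 : v₂ = 0
  · exact case_neg_one v₁ h1 (by rw [← hv₂]; exact h2)
  by_cases h3 : v₃ = 0
  · exact case_one v₂ h2 (by rw [← hv₃]; exact h3)
  by_cases h4 : v₄ = 0
  · exact case_one v₃ h3 (by rw [← hv₄]; exact h4)
  by_cases h5 : v₅ = 0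
  · exact case_neg_q v₄ h4 (by rw [← hv₅]; exact h5)
  exact case_q v₅ h5 h6

/-- The quartic relation `(s² - 1)(s² - q²) = 0` from the quadratic relation with trace
`± (q + 1)`. -/
theorem quartic_of_trace {q a : 𝒪} {s : Module.End 𝒪 M}
    (hrel : ∀ v : M, s (s v) - a • s v + q • v = 0) (ha : a = q + 1 ∨ a = -(q + 1)) (v : M) :
    s (s (s (s v))) - (1 + q ^ 2) • s (s v) + (q ^ 2) • v = 0 := by
  have h2 : s (s v) = a • s v - q • v := by
    have h := hrel v
    have h' : s (s v) = s (s v) - a • s v + q • v + (a • s v - q • v) := by abel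
    rw [h', h, zero_add]
  have h3 : s (s (s v)) = (a ^ 2 - q) • s v - (a * q) • v := by
    rw [h2, map_sub, map_smul, map_smul, h2]
    module
  have h4 : s (s (s (s v))) = (a ^ 3 - 2 * a * q) • s v + (q ^ 2 - a ^ 2 * q) • v := by
    rw [h3, map_sub, map_smul, map_smul, h2]
    module
  rw [h4, h2]
  rcases ha with rfl | rfl
  · module
  · module

/-- **The quartic relation from the cubic one.** -/
theorem quartic_of_cubicFrob [Nontrivial M] {q a : 𝒪} (hq : q ≠ 0) {s : Module.End 𝒪 M}
    (hrel : ∀ v : M, s (s v) - a • s v + q • v = 0) (hcub : CubicFrobRel q s) (v : M) :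
    s (s (s (s v))) - (1 + q ^ 2) • s (s v) + (q ^ 2) • v = 0 :=
  quartic_of_trace hrel (trace_of_cubicFrob hq hrel hcub) v

end

end Fermat.Agent.S35.H891
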