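/-
S35 top glue for the CUBIC relation (helper891): the adic eigenmodule of the NEW part, variant of
helper991's `S35.H991.exists_adic_eigenmodule_new` with

* the degeneracy maps `f c` only required to be operator-equivariant on the `p`-power TORSION
  (this is the form in which helper155's `pushA_hecke`, `pushB_hecke` are proved);
* one more clause: CUBIC relations with integer coefficients on the `p`-power torsion of the new
  part are inherited by the module.

The module is built inside the Galois-stable subgroup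
`newTorsSub p f = {x | x is p-power torsion ∧ ∀ γ c, f c (γ • x) = 0}`.
-/
import Fermat.Agent.S35.H991.Flat
import Fermat.Agent.S35.H891.Eigen3

set_option autoImplicit false
set_option linter.style.haveILetI false

namespace Fermat.Agent.S35.H891

open TensorProduct IsLocalRing Fermat.Agent.S30.H529

section Transfer

variable (O : Type*) [CommRing O] [Module.Flat ℤ O]
variable {J J' : Type*} [AddCommGroup J] [AddCommGroup J']

/-- A map `J → J'` killing the `m`-torsion of `J` has a base change killing the `m`-torsion of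
`O ⊗ J`. -/
theorem baseChange_eq_zero_of_torsion' (m : ℤ) (A : J →ₗ[ℤ] J')
    (hA : ∀ y : J, m • y = 0 → A y = 0) (x : O ⊗[ℤ] J) (hx : m • x = 0) :
    A.baseChange O x = 0 := by
  obtain ⟨z, rfl⟩ := exists_lTensor_eq_of_smul_eq_zero O m x hx
  have h1 : A ∘ₗ (LinearMap.ker (m • (LinearMap.id : J →ₗ[ℤ] J))).subtype = 0 := by
    apply LinearMap.ext
    intro y
    have hy := y.2
    rw [LinearMap.mem_ker, LinearMap.smul_apply, LinearMap.id_apply] at hy
    simpa using hA y hy
  have h2 : A.baseChange O ((LinearMap.ker (m • (LinearMap.id : J →ₗ[ℤ] J))).subtype.lTensor O z)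
      = (A ∘ₗ (LinearMap.ker (m • (LinearMap.id : J →ₗ[ℤ] J))).subtype).lTensor O z := by
    rw [LinearMap.lTensor_comp]
    rfl
  rw [h2, h1, LinearMap.lTensor_zero, LinearMap.zero_apply]

end Transfer

section NewTorsSub

variable {G : Type*} [Group G] {J : Type*} [AddCommGroup J] [DistribMulAction G J]
variable {C : Type*} {J' : C → Type*} [∀ c, AddCommGroup (J' c)]

theorem smul_nsmul_comm (γ : G) (k : ℕ) (x : J) : γ • (k • x) = k • (γ • x) :=
  map_nsmul (DistribSMul.toAddMonoidHom J γ) k x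

theorem smul_zsmul_comm (γ : G) (k : ℤ) (x : J) : γ • (k • x) = k • (γ • x) :=
  map_zsmul (DistribSMul.toAddMonoidHom J γ) k x

/-- The `G`-stable subgroup of the `p`-power torsion of `J` cut out by the additive maps `f c`. -/
def newTorsSub (G : Type*) [Group G] [DistribMulAction G J] (p : ℕ) (f : ∀ c, J →+ J' c) :
    Submodule ℤ J where
  carrier := {x | (∃ n : ℕ, p ^ n • x = 0) ∧ ∀ (γ : G) (c : C), f c (γ • x) = 0}
  zero_mem' := by
    refine ⟨⟨0, smul_zero _⟩, ?_⟩
    intro γ c
    rw [smul_zero, map_zero]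
  add_mem' := by
    rintro x y ⟨⟨n, hn⟩, hx⟩ ⟨⟨k, hk⟩, hy⟩
    refine ⟨⟨n + k, ?_⟩, ?_⟩
    · have h1 : p ^ (n + k) • x = 0 := by rw [pow_add, mul_comm, mul_smul, hn, smul_zero]
      have h2 : p ^ (n + k) • y = 0 := by rw [pow_add, mul_smul, hk, smul_zero]
      rw [smul_add, h1, h2, add_zero]
    · intro γ c
      rw [smul_add, map_add, hx γ c, hy γ c, add_zero]
  smul_mem' := by
    rintro r x ⟨⟨n, hn⟩, hx⟩
    refine ⟨⟨n, ?_⟩, ?_⟩
    · rw [smul_comm, hn, smul_zero]
    · intro γ c
      rw [smul_zsmul_comm, map_zsmul, hx γ c, smul_zero]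

theorem mem_newTorsSub {p : ℕ} {f : ∀ c, J →+ J' c} {x : J} :
    x ∈ newTorsSub G p f ↔ (∃ n : ℕ, p ^ n • x = 0) ∧ ∀ (γ : G) (c : C), f c (γ • x) = 0 :=
  Iff.rfl

theorem smul_mem_newTorsSub {p : ℕ} {f : ∀ c, J →+ J' c} (γ : G) {x : J}
    (hx : x ∈ newTorsSub G p f) : γ • x ∈ newTorsSub G p f := by
  obtain ⟨⟨n, hn⟩, hx⟩ := hx
  refine ⟨⟨n, ?_⟩, ?_⟩
  · rw [← smul_nsmul_comm, hn, smul_zero]
  · intro γ' c
    rw [← mul_smul]
    exact hx (γ' * γ) c

/-- The Galois action on the new torsion subgroup. -/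
@[reducible] def newTorsSubAction (p : ℕ) (f : ∀ c, J →+ J' c) :
    DistribMulAction G (newTorsSub G p f) where
  smul γ x := ⟨γ • (x : J), smul_mem_newTorsSub γ x.2⟩
  one_smul x := Subtype.ext (one_smul G (x : J))
  mul_smul γ δ x := Subtype.ext (mul_smul γ δ (x : J))
  smul_zero γ := Subtype.ext (smul_zero γ)
  smul_add γ x y := Subtype.ext (smul_add γ (x : J) (y : J))

end NewTorsSub

section Main

/-- The absolute Galois group of `ℚ`. -/
local notation "Γℚ" => (AlgebraicClosure ℚ ≃ₐ[ℚ] AlgebraicClosure ℚ)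

variable {O : Type} [CommRing O] [IsDomain O] [IsDiscreteValuationRing O]
  [IsAdicComplete (maximalIdeal O) O] [CharZero O]

/-- **The adic eigenmodule of the new part**, torsion form, with the cubic clause. -/
theorem exists_adic_eigenmodule_new3 {p : ℕ} (hpO : (p : O) ∈ maximalIdeal O) (hp0 : p ≠ 0)
    {J : Type} [AddCommGroup J] [DistribMulAction Γℚ J]
    {ι : Type} (T : ι → J →+ J) (a : ι → O)
    (hT : ∀ (i : ι) (γ : Γℚ) (x : J), T i (γ • x) = γ • T i x)
    (hfin : {x : J | p • x = 0}.Finite)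
    (hsm : ∀ x : J, (∃ n : ℕ, p ^ n • x = 0) →
      ∃ L : IntermediateField ℚ (AlgebraicClosure ℚ), FiniteDimensional ℚ L ∧
        ∀ σ : Γℚ, (∀ y ∈ L, σ y = y) → σ • x = x)
    {C : Type} {J' : C → Type} [∀ c, AddCommGroup (J' c)]
    (T' : ∀ c, ι → J' c →+ J' c) (f : ∀ c, J →+ J' c)
    (hf : ∀ (c : C) (i : ι) (x : J), (∃ n : ℕ, p ^ n • x = 0) →
      f c (T i x) = T' c i (f c x))
    (hexcl : ∀ (c : C) (z : ℕ → O ⊗[ℤ] J' c), (p : O) • z 0 = 0 →
      (∀ n, (p : O) • z (n + 1) = z n) →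
      (∀ i n, tensorOp O (T' c) i (z n) = a i • z n) → z = 0)
    (v : ℕ → O ⊗[ℤ] J) (hv0 : (p : O) • v 0 = 0) (hv : ∀ n, (p : O) • v (n + 1) = v n)
    (hne : v ≠ 0) (heig : ∀ i n, tensorOp O T i (v n) = a i • v n) :
    ∃ (M : Type) (_ : AddCommGroup M) (_ : Module O M) (_ : Module.Free O M)
      (_ : Module.Finite O M) (ρ : Γℚ →* Module.End O M),
      Nontrivial M ∧ GaloisActionIsAdicContinuous O ρ ∧
      (∀ γ : Γℚ,
        (∀ x : J, (∃ n : ℕ, p ^ n • x = 0) → (∀ (γ' : Γℚ) (c : C), f c (γ' • x) = 0) →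
          γ • x = x) → ρ γ = 1) ∧
      (∀ (γ : Γℚ) (i : ι) (c : ℤ),
        (∀ x : J, (∃ n : ℕ, p ^ n • x = 0) → (∀ (γ' : Γℚ) (c' : C), f c' (γ' • x) = 0) →
          γ • γ • x - T i (γ • x) + c • x = 0) →
        ρ γ * ρ γ - a i • ρ γ + (c : O) • (1 : Module.End O M) = 0) ∧
      (∀ (γ : Γℚ) (c₂ c₁ c₀ : ℤ),
        (∀ x : J, (∃ n : ℕ, p ^ n • x = 0) → (∀ (γ' : Γℚ) (c' : C), f c' (γ' • x) = 0) →
          γ • γ • γ • x + c₂ • (γ • γ • x) + c₁ • (γ • x) + c₀ • x = 0) →
        ∀ m : M, ρ γ (ρ γ (ρ γ m)) + (c₂ : O) • ρ γ (ρ γ m) + (c₁ : O) • ρ γ m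
          + (c₀ : O) • m = 0) := by
  classical
  -- the new subgroup, with its Galois action
  let K : Submodule ℤ J := newTorsSub Γℚ p f
  letI actK : DistribMulAction Γℚ K := newTorsSubAction p f
  have hsmulK : ∀ (γ : Γℚ) (x : K), ((γ • x : K) : J) = γ • (x : J) := fun _ _ => rfl
  have htorsK : ∀ x : K, ∃ n : ℕ, p ^ n • (x : J) = 0 := fun x => x.2.1
  have hcoe_nsmul : ∀ (k : ℕ) (x : K), ((k • x : K) : J) = k • (x : J) := fun _ _ => rfl
  have hcoe_zsmul : ∀ (k : ℤ) (x : K), ((k • x : K) : J) = k • (x : J) := fun _ _ => rfl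
  -- the operators on `K`
  have hTK : ∀ (i : ι) (x : J), x ∈ K → T i x ∈ K := by
    rintro i x ⟨⟨n, hn⟩, hx⟩
    refine ⟨⟨n, ?_⟩, ?_⟩
    · rw [← map_nsmul, hn, map_zero]
    · intro γ c
      rw [← hT, hf c i (γ • x) ⟨n, by rw [← smul_nsmul_comm, hn, smul_zero]⟩, hx γ c, map_zero]
  let TK : ι → K →+ K := fun i =>
    { toFun := fun x => ⟨T i (x : J), hTK i (x : J) x.2⟩
      map_zero' := Subtype.ext (map_zero (T i))
      map_add' := fun x y => Subtype.ext (map_add (T i) (x : J) (y : J)) }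
  have hTKl : ∀ (i : ι) (x : K), ((TK i x : K) : J) = T i (x : J) := fun _ _ => rfl
  have hTKG : ∀ (i : ι) (γ : Γℚ) (x : K), TK i (γ • x) = γ • TK i x := by
    intro i γ x
    apply Subtype.ext
    rw [hTKl, hsmulK, hsmulK, hTKl]
    exact hT i γ (x : J)
  have hfinK : {x : K | p • x = 0}.Finite := by
    refine Set.Finite.of_finite_image (f := fun x : K => (x : J)) ?_
      (fun x _ y _ h => Subtype.ext h)
    refine hfin.subset ?_
    rintro _ ⟨x, hx, rfl⟩
    show p • (x : J) = 0
    have : ((p • x : K) : J) = 0 := by rw [hx]; rfl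
    exact this
  have hsmK : ∀ x : K, (∃ n : ℕ, p ^ n • x = 0) →
      ∃ L : IntermediateField ℚ (AlgebraicClosure ℚ), FiniteDimensional ℚ L ∧
        ∀ σ : Γℚ, (∀ y ∈ L, σ y = y) → σ • x = x := by
    rintro x -
    obtain ⟨L, hL, hLx⟩ := hsm (x : J) (htorsK x)
    exact ⟨L, hL, fun σ hσ => Subtype.ext (hLx σ hσ)⟩
  -- the eigen-sequence lies in `O ⊗ K`
  have hvpow : ∀ n, ((p ^ (n + 1) : ℕ) : ℤ) • v n = 0 := by
    intro n
    have h1 : (p : O) ^ (n + 1) • v n = 0 :=
      tate_pow_succ_smul (ϖ := (p : O)) (t := tensorOp O T) (a := a) ⟨hv0, hv, heig⟩ n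
    rw [← natCast_pow_smul]
    exact h1
  have hinj : Function.Injective (K.subtype.baseChange O) := by
    have := Module.Flat.lTensor_preserves_injective_linearMap (M := O) K.subtype
      K.injective_subtype
    exact this
  -- vanishing of the images under the degeneracy maps
  have hvan : ∀ (γ : Γℚ) (c : C) (n : ℕ),
      ((f c).toIntLinearMap.comp (actLin J γ)).baseChange O (v n) = 0 := by
    intro γ c n
    have hz := hexcl c (fun n => ((f c).toIntLinearMap.comp (actLin J γ)).baseChange O (v n))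
      (by rw [← map_smul, hv0, map_zero])
      (fun n => by rw [← map_smul, hv n])
      (fun i n => by
        show ((T' c i).toIntLinearMap.baseChange O)
            (((f c).toIntLinearMap.comp (actLin J γ)).baseChange O (v n))
          = a i • ((f c).toIntLinearMap.comp (actLin J γ)).baseChange O (v n)
        have h1 : ((T' c i).toIntLinearMap.comp ((f c).toIntLinearMap.comp (actLin J γ))
            - ((f c).toIntLinearMap.comp (actLin J γ)).comp (T i).toIntLinearMap).baseChange O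
              (v n) = 0 := by
          refine baseChange_eq_zero_of_torsion' O ((p ^ (n + 1) : ℕ) : ℤ) _ ?_ (v n) (hvpow n)
          intro y hy
          rw [natCast_zsmul] at hy
          show T' c i (f c (γ • y)) - f c (γ • T i y) = 0
          rw [← hT, hf c i (γ • y) ⟨n + 1, by rw [← smul_nsmul_comm, hy, smul_zero]⟩, sub_self]
        rw [LinearMap.baseChange_sub, LinearMap.sub_apply, sub_eq_zero,
          LinearMap.baseChange_comp, LinearMap.baseChange_comp (f := (T i).toIntLinearMap),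
          LinearMap.comp_apply, LinearMap.comp_apply] at h1
        rw [h1]
        have h2 : (T i).toIntLinearMap.baseChange O (v n) = a i • v n := heig i n
        rw [h2, map_smul])
    exact congrFun hz n
  have hlift : ∀ n, ∃ s : O ⊗[ℤ] K, K.subtype.baseChange O s = v n := by
    intro n
    have hfin' : {x : J | p ^ (n + 1) • x = 0}.Finite := finite_torsion_pow J p hfin (n + 1)
    obtain ⟨s, hs⟩ := Fermat.Agent.S35.H991.exists_lTensor_subtype_eq O (p ^ (n + 1)) hfin'
      (C := Γℚ × C) (J' := fun γc => J' γc.2)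
      (fun γc => (f γc.2).toIntLinearMap.comp (actLin J γc.1)) K
      (fun x hx0 hx => ⟨⟨n + 1, hx0⟩, fun γ c => hx (γ, c)⟩) (v n) (hvpow n)
      (fun γc => hvan γc.1 γc.2 n)
    exact ⟨s, hs⟩
  choose s hs using hlift
  have hs0 : (p : O) • s 0 = 0 := by
    apply hinj
    rw [map_smul, hs, hv0, map_zero]
  have hss : ∀ n, (p : O) • s (n + 1) = s n := by
    intro n
    apply hinj
    rw [map_smul, hs, hs, hv n]
  have hsne : s ≠ 0 := by
    intro h
    apply hne
    funext n
    rw [← hs n, h]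
    simp
  have hseig : ∀ i n, tensorOp O TK i (s n) = a i • s n := by
    intro i n
    apply hinj
    show K.subtype.baseChange O ((TK i).toIntLinearMap.baseChange O (s n))
      = K.subtype.baseChange O (a i • s n)
    have h1 : K.subtype.comp (TK i).toIntLinearMap
        = (T i).toIntLinearMap.comp K.subtype := by
      apply LinearMap.ext
      intro x
      rfl
    rw [← LinearMap.comp_apply, ← LinearMap.baseChange_comp, h1, LinearMap.baseChange_comp,
      LinearMap.comp_apply, hs, map_smul, hs]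
    exact heig i n
  obtain ⟨M, i1, i2, i3, i4, ρ, hnt, hcont, hunr, hquad, hcub⟩ :=
    exists_adic_galois_eigenmodule3 p O K TK a hpO hp0 hTKG hfinK hsmK s hs0 hss hsne hseig
  refine ⟨M, i1, i2, i3, i4, ρ, hnt, hcont, ?_, ?_, ?_⟩
  · intro γ hγ
    refine hunr γ ?_
    rintro x -
    apply Subtype.ext
    rw [hsmulK]
    exact hγ (x : J) (htorsK x) x.2.2
  · intro γ i c hγ
    refine hquad γ i c ?_
    rintro x -
    apply Subtype.ext
    exact hγ (x : J) (htorsK x) x.2.2
  · intro γ c₂ c₁ c₀ hγ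
    refine hcub γ c₂ c₁ c₀ ?_
    rintro x -
    apply Subtype.ext
    exact hγ (x : J) (htorsK x) x.2.2

end Main

end Fermat.Agent.S35.H891
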