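/-
S35 mid layer for the CUBIC relation (helper891): `S35.H991.HasNewformEigenModules` (the input of
the landed top glue `S35.H991.result_of`) from

* the inputs of row S30 in the unfolded lattice form (`hfin hsm hgeq hunr hes hlat`, exactly as in
  `S35/H991/Mid.lean`);
* `NewPartFrob3Statement` : for `q ∥ M` there are two GALOIS-equivariant additive maps
  `a b : J₀(M) → J₀(M/q)` such that every Frobenius lift `σ` at `q` satisfies the CUBIC relation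
  `(σ² - q²)(σ² - 1)² x = 0` on the torsion prime to `q` of `ker a ∩ ker b`;
* `S35.H991.ExclTateStatement`.

Differences with `S35.H991.hasNewformEigenModules_of_inputs`:
* the relation is cubic in `σ²` (this is what the norm-residue argument NR gives without
  normalising the Kummer generator; the quartic relation on the eigenmodule FOLLOWS, by the
  algebra of `Cubic.lean` and the quadratic relation with determinant `q`);
* no Hecke-equivariance of `a`, `b` is asked: on torsion it follows from the Galois-equivariance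
  and the Eichler–Shimura relations (`S35.H155.map_hecke_of_galois`).
-/
import Fermat.Agent.S35.H891.NewSub3
import Fermat.Agent.S35.H891.Cubic
import Fermat.Agent.S35.H991.Mid
import Fermat.Agent.S35.H155.B2

set_option autoImplicit false

namespace Fermat.Agent.S35.H891

open TensorProduct IsLocalRing Fermat.Agent.S30.H990 Fermat.Agent.S30.H529
  Fermat.Agent.S35.H991

/-- Bad Frobenius on the `q`-new torsion, cubic form, for degeneracy maps `J₀(M) → J₀(K)`. -/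
def NewPartFrob3At (M K q : ℕ) [NeZero M] [NeZero K] : Prop :=
  ∃ a b : ModularCurve.JZero M →+ ModularCurve.JZero K,
    (∀ (γ : GQ) (x : ModularCurve.JZero M), a (γ • x) = γ • a x) ∧
    (∀ (γ : GQ) (x : ModularCurve.JZero M), b (γ • x) = γ • b x) ∧
    ∀ A : ValuationSubring (AlgebraicClosure ℚ), A.LiesOverPrime q →
      ∀ σ : GQ, A.IsFrobeniusAt σ q →
        ∀ m : ℕ, ¬ q ∣ m → ∀ x : ModularCurve.JZero M, m • x = 0 → a x = 0 → b x = 0 →
          σ • σ • σ • σ • σ • σ • x + (1 + 2 * q ^ 2) • (σ • σ • x)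
            = (2 + q ^ 2) • (σ • σ • σ • σ • x) + q ^ 2 • x

/-- **Bad Frobenius on the `q`-new torsion, cubic form.** -/
def NewPartFrob3Statement : Prop :=
  ∀ (M q : ℕ) [NeZero M] [NeZero (M / q)], q.Prime → q ∣ M → ¬ q ^ 2 ∣ M →
    NewPartFrob3At M (M / q) q

/-- **The newform eigenmodules from the inputs of row S30, the cubic relation and (X).** -/
theorem hasNewformEigenModules_of_cubic
    (hfin : ∀ (N p : ℕ) [NeZero N], p.Prime →
      Finite {x : ModularCurve.JZero N // (p : ℤ) • x = 0})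
    (hsm : ∀ (N p : ℕ) [NeZero N], ∀ x : ModularCurve.JZero N,
      (∃ n : ℕ, ((p : ℤ) ^ n) • x = 0) →
        ∃ L : IntermediateField ℚ (AlgebraicClosure ℚ), FiniteDimensional ℚ L ∧
          ∀ σ : GQ, (∀ y ∈ L, σ y = y) → σ • x = x)
    (hgeq : ∀ (N : ℕ) [NeZero N] (ℓ : Nat.Primes) (σ : GQ) (x : ModularCurve.JZero N),
      ModularCurve.heckeOperatorBar N ℓ (σ • x) = σ • ModularCurve.heckeOperatorBar N ℓ x)
    (hunr : ∀ (N p : ℕ) [NeZero N], ∀ q : ℕ, q.Prime → ¬ q ∣ N * p →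
      ∀ A : ValuationSubring (AlgebraicClosure ℚ), A.LiesOverPrime q →
        ∀ σ ∈ A.inertiaSubgroupIn ℚ, ∀ x : ModularCurve.JZero N,
          (∃ n : ℕ, ((p : ℤ) ^ n) • x = 0) → σ • x = x)
    (hes : ∀ (N p : ℕ) [NeZero N], ∀ (ℓ : ℕ) (hℓ : ℓ.Prime), ¬ ℓ ∣ N * p →
      ∀ A : ValuationSubring (AlgebraicClosure ℚ), A.LiesOverPrime ℓ →
        ∀ σ : GQ, A.IsFrobeniusAt σ ℓ → ∀ x : ModularCurve.JZero N,
          (∃ n : ℕ, ((p : ℤ) ^ n) • x = 0) →
            σ • σ • x - ModularCurve.heckeOperatorBar N ⟨ℓ, hℓ⟩ (σ • x) + (ℓ : ℤ) • x = 0)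
    (hlat : ∀ (N p : ℕ) [NeZero N], p.Prime →
      ∃ (Λ : Type) (_ : AddCommGroup Λ) (_ : Module.Free ℤ Λ) (_ : Module.Finite ℤ Λ)
        (TΛ : Nat.Primes → Λ →ₗ[ℤ] Λ) (κ : ℕ → Λ →ₗ[ℤ] ModularCurve.JZero N),
        (∀ (n : ℕ) (x : Λ), κ n x = 0 ↔ ∃ y : Λ, x = ((p : ℤ) ^ n) • y) ∧
        (∀ (n : ℕ) (x : Λ), (p : ℤ) • κ (n + 1) x = κ n x) ∧
        (∀ ℓ : Nat.Primes, ¬ (ℓ : ℕ) ∣ N * p → ∀ (n : ℕ) (x : Λ),
          κ n (TΛ ℓ x) = ModularCurve.heckeOperatorBar N ℓ (κ n x)) ∧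
        (∀ (S : Set ℕ) (R : Type) [CommRing R] [IsDomain R] [CharZero R]
          (χ : CuspForm.heckeAlgebra N 2 S →+* R),
          ∃ v : R ⊗[ℤ] Λ, v ≠ 0 ∧
            ∀ (ℓ : ℕ) (hℓ : ℓ.Prime) (hℓN : ¬ ℓ ∣ N) (hℓS : ℓ ∉ S),
              (TΛ ⟨ℓ, hℓ⟩).baseChange R v = χ (CuspForm.heckeAlgebra.T hℓ hℓN hℓS) • v))
    (hG : NewPartFrob3Statement) (hX : ExclTateStatement) :
    HasNewformEigenModules := by
  classical
  intro M _ g hg p _ S O' _ _ _ _ _ _ hpO' chig hchig iota hpS hMS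
  have hp : p.Prime := Fact.out
  set χ : CuspForm.heckeAlgebra M 2 (↑S : Set ℕ) →+* O' := iota.comp chig.rangeRestrict with hχ
  obtain ⟨Λ, i1, i2, i3, TΛ, κ, hκ0, hκs, hκT, hocc⟩ := hlat M p hp
  obtain ⟨v, hv, hva⟩ := hocc (↑S : Set ℕ) O' χ
  -- good primes
  have hNp : ∀ ℓ : ℕ, ℓ.Prime → ¬ ℓ ∣ M → ℓ ≠ p → ¬ ℓ ∣ M * p := by
    intro ℓ hℓ hℓN hℓp h
    rcases (Nat.Prime.dvd_mul hℓ).1 h with h | h
    · exact hℓN h
    · exact hℓp ((Nat.prime_dvd_prime_iff_eq hℓ hp).1 h)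
  have hιp : ∀ i : {ℓ : Nat.Primes // ¬ (ℓ : ℕ) ∣ M ∧ (ℓ : ℕ) ∉ (↑S : Set ℕ)},
      ((i.1 : Nat.Primes) : ℕ) ≠ p := by
    intro i h
    exact i.2.2 (by rw [h]; exact hpS)
  -- conversions between `ℤ`- and `ℕ`-torsion
  have hpow : ∀ (N : ℕ) (n : ℕ) (x : ModularCurve.JZero N),
      ((p : ℤ) ^ n) • x = p ^ n • x := by
    intro N n x
    rw [← Nat.cast_pow, natCast_zsmul]
  -- the torsion relations in the form of helper155
  have hTors : ∀ (N : ℕ) [NeZero N], Fermat.Agent.S35.H155.TorsRel N p := by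
    intro N _ ℓ hℓ hℓN A hA
    refine ⟨fun σ hσ x hx => hunr N p ℓ hℓ hℓN A hA σ hσ x ?_, fun σ hσ x hx => ?_⟩
    · obtain ⟨n, hn⟩ := hx
      exact ⟨n, by rw [hpow]; exact hn⟩
    · have h := hes N p ℓ hℓ hℓN A hA σ hσ x (by
        obtain ⟨n, hn⟩ := hx
        exact ⟨n, by rw [hpow]; exact hn⟩)
      rw [natCast_zsmul] at h
      exact h
  -- the operators
  let T : {ℓ : Nat.Primes // ¬ (ℓ : ℕ) ∣ M ∧ (ℓ : ℕ) ∉ (↑S : Set ℕ)} →
      ModularCurve.JZero M →+ ModularCurve.JZero M :=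
    fun i => (ModularCurve.heckeOperatorBar M i.1).toAddMonoidHom
  let a : {ℓ : Nat.Primes // ¬ (ℓ : ℕ) ∣ M ∧ (ℓ : ℕ) ∉ (↑S : Set ℕ)} → O' :=
    fun i => χ (CuspForm.heckeAlgebra.T i.1.2 i.2.1 i.2.2)
  have hT' : ∀ i, (T i).toIntLinearMap = ModularCurve.heckeOperatorBar M i.1 :=
    fun i => LinearMap.ext fun _ => rfl
  have hfin' : {x : ModularCurve.JZero M | p • x = 0}.Finite := by
    have h1 : {x : ModularCurve.JZero M | (p : ℤ) • x = 0}.Finite :=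
      Set.finite_coe_iff.mp (hfin M p hp)
    refine h1.subset fun x hx => ?_
    show (p : ℤ) • x = 0
    rw [natCast_zsmul]
    exact hx
  -- the Kummer sequence (as in `S30.H649.exists_adicFrobModule_of_lattice`)
  have hκzero : ∀ w : O' ⊗[ℤ] Λ, (κ 0).baseChange O' w = 0 := by
    have h0 : κ 0 = 0 := by
      apply LinearMap.ext
      intro x
      rw [LinearMap.zero_apply, hκ0 0 x]
      exact ⟨x, by rw [pow_zero, one_smul]⟩
    intro w
    rw [h0, LinearMap.baseChange_zero, LinearMap.zero_apply]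
  have hκsucc : ∀ (n : ℕ) (w : O' ⊗[ℤ] Λ),
      (p : O') • (κ (n + 1)).baseChange O' w = (κ n).baseChange O' w := by
    intro n w
    have h1 : (p : ℤ) • κ (n + 1) = κ n := LinearMap.ext fun x => hκs n x
    have h2 : ((p : ℤ) : O') • (κ (n + 1)).baseChange O' w
        = (p : ℤ) • (κ (n + 1)).baseChange O' w := Fermat.Agent.S30.H649.intCast_smul_tensor _ _
    rw [Int.cast_natCast] at h2
    rw [h2, ← LinearMap.smul_apply, ← LinearMap.baseChange_smul, h1]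
  obtain ⟨n₀, hn₀⟩ := Fermat.Agent.S30.H649.exists_baseChange_ne_zero (𝒪 := O') hpO' κ hκ0 v hv
  obtain ⟨m₀, rfl⟩ : ∃ m₀, n₀ = m₀ + 1 := by
    cases n₀ with
    | zero => exact absurd (hκzero v) hn₀
    | succ m => exact ⟨m, rfl⟩
  let seq : ℕ → O' ⊗[ℤ] ModularCurve.JZero M := fun n => (κ (n + 1)).baseChange O' v
  have hseq0 : (p : O') • seq 0 = 0 := by
    show (p : O') • (κ (0 + 1)).baseChange O' v = 0
    rw [hκsucc 0 v, hκzero v]
  have hseqs : ∀ n, (p : O') • seq (n + 1) = seq n := fun n => hκsucc (n + 1) v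
  have hseqne : seq ≠ 0 := fun h => hn₀ (congrFun h m₀)
  have hseqeig : ∀ i n, tensorOp O' T i (seq n) = a i • seq n := by
    intro i n
    show ((T i).toIntLinearMap.baseChange O') ((κ (n + 1)).baseChange O' v)
      = a i • (κ (n + 1)).baseChange O' v
    have h1 : ModularCurve.heckeOperatorBar M i.1 ∘ₗ κ (n + 1) = κ (n + 1) ∘ₗ TΛ i.1 :=
      LinearMap.ext fun x => (hκT i.1 (hNp _ i.1.2 i.2.1 (hιp i)) (n + 1) x).symm
    have hva' : (TΛ i.1).baseChange O' v = a i • v := hva i.1 i.1.2 i.2.1 i.2.2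
    rw [hT' i, ← LinearMap.comp_apply, ← LinearMap.baseChange_comp, h1,
      LinearMap.baseChange_comp, LinearMap.comp_apply, hva', map_smul]
  -- the degeneracy maps at the primes `q ∥ M`, `q ≠ p`
  let Q : Type := {q : ℕ // q.Prime ∧ q ≠ p ∧ q ∣ M ∧ ¬ q ^ 2 ∣ M}
  have hne0 : ∀ q : Q, NeZero (M / q.1) := by
    intro q
    refine ⟨?_⟩
    have hM : M ≠ 0 := NeZero.ne M
    intro h0
    have h1 := Nat.div_mul_cancel q.2.2.2.1
    rw [h0, zero_mul] at h1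
    exact hM h1.symm
  have hab : ∀ q : Q, ∃ a b : ModularCurve.JZero M →+ ModularCurve.JZero (M / q.1),
      (∀ (γ : GQ) (x : ModularCurve.JZero M), a (γ • x) = γ • a x) ∧
      (∀ (γ : GQ) (x : ModularCurve.JZero M), b (γ • x) = γ • b x) ∧
      ∀ A : ValuationSubring (AlgebraicClosure ℚ), A.LiesOverPrime q.1 →
        ∀ σ : GQ, A.IsFrobeniusAt σ q.1 →
          ∀ m : ℕ, ¬ q.1 ∣ m → ∀ x : ModularCurve.JZero M, m • x = 0 → a x = 0 → b x = 0 →
            σ • σ • σ • σ • σ • σ • x + (1 + 2 * q.1 ^ 2) • (σ • σ • x)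
              = (2 + q.1 ^ 2) • (σ • σ • σ • σ • x) + q.1 ^ 2 • x :=
    fun q => @hG M q.1 _ (hne0 q) q.2.1 q.2.2.2.1 q.2.2.2.2
  choose da db hda hdb hfrobq using hab
  let J' : Q × Bool → Type := fun c => ModularCurve.JZero (M / c.1.1)
  let f : ∀ c : Q × Bool, ModularCurve.JZero M →+ J' c := fun c =>
    match c with
    | (q, true) => da q
    | (q, false) => db q
  let T'' : ∀ c : Q × Bool, {ℓ : Nat.Primes // ¬ (ℓ : ℕ) ∣ M ∧ (ℓ : ℕ) ∉ (↑S : Set ℕ)} →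
      J' c →+ J' c :=
    fun c i => (@ModularCurve.heckeOperatorBar (M / c.1.1) (hne0 c.1) i.1).toAddMonoidHom
  have hdivp : ∀ (q : Q) (ℓ : ℕ), ℓ.Prime → ¬ ℓ ∣ M → ℓ ≠ p → ¬ ℓ ∣ (M / q.1) * p := by
    intro q ℓ hℓ hℓN hℓp h
    rcases (Nat.Prime.dvd_mul hℓ).1 h with h | h
    · exact hℓN (h.trans (Nat.div_dvd_of_dvd q.2.2.2.1))
    · exact hℓp ((Nat.prime_dvd_prime_iff_eq hℓ hp).1 h)
  have hf : ∀ (c : Q × Bool) (i : {ℓ : Nat.Primes // ¬ (ℓ : ℕ) ∣ M ∧ (ℓ : ℕ) ∉ (↑S : Set ℕ)})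
      (x : ModularCurve.JZero M), (∃ n : ℕ, p ^ n • x = 0) → f c (T i x) = T'' c i (f c x) := by
    rintro ⟨q, b⟩ i x hx
    cases b with
    | true =>
      exact @Fermat.Agent.S35.H155.map_hecke_of_galois M (M / q.1) _ (hne0 q) p (da q) (hda q)
        (hTors M) (@hTors (M / q.1) (hne0 q)) i.1.1 i.1.2 (hNp _ i.1.2 i.2.1 (hιp i))
        (hdivp q _ i.1.2 i.2.1 (hιp i)) x hx
    | false =>
      exact @Fermat.Agent.S35.H155.map_hecke_of_galois M (M / q.1) _ (hne0 q) p (db q) (hdb q)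
        (hTors M) (@hTors (M / q.1) (hne0 q)) i.1.1 i.1.2 (hNp _ i.1.2 i.2.1 (hιp i))
        (hdivp q _ i.1.2 i.2.1 (hιp i)) x hx
  have hexcl : ∀ (c : Q × Bool) (z : ℕ → O' ⊗[ℤ] J' c), (p : O') • z 0 = 0 →
      (∀ n, (p : O') • z (n + 1) = z n) →
      (∀ i n, tensorOp O' (T'' c) i (z n) = a i • z n) → z = 0 := by
    intro c z hz0 hzs hzeig
    exact @hX M _ g hg c.1.1 (hne0 c.1) c.1.2.1 c.1.2.2.2.1 p _ S O' _ _ _ _ _ _ hpO' chig hchig
      iota hpS hMS z hz0 hzs (fun ℓ hℓ hℓM hℓS n => hzeig ⟨⟨ℓ, hℓ⟩, hℓM, hℓS⟩ n)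
  -- the eigenmodule of the new part
  obtain ⟨E, j1, j2, j3, j4, ρ, hnt, hcont, hone, hquad, hcub⟩ :=
    exists_adic_eigenmodule_new3 (O := O') hpO' hp.ne_zero (J := ModularCurve.JZero M) T a
      (fun i γ x => hgeq M i.1 γ x) hfin'
      (fun x hx => hsm M p x (by
        obtain ⟨n, hn⟩ := hx
        exact ⟨n, by rw [hpow]; exact hn⟩))
      T'' f hf hexcl seq hseq0 hseqs hseqne hseqeig
  -- the adic eigenmodule
  let EM : AdicEigenModule p M S O' χ :=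
    { M := E
      ρ := ρ
      cont := hcont
      unram := fun q hq hqN hqp P hP σ hσ =>
        hone σ fun x hx _ => hunr M p q hq (hNp q hq hqN hqp) P hP σ hσ x (by
          obtain ⟨n, hn⟩ := hx
          exact ⟨n, by rw [hpow]; exact hn⟩)
      frob := fun ℓ hℓ hℓN hℓS A hA σ hσ => by
        have hℓp : ℓ ≠ p := fun h => hℓS (Finset.mem_coe.mpr (h ▸ hpS))
        have h := hquad σ ⟨⟨ℓ, hℓ⟩, hℓN, hℓS⟩ ((ℓ : ℕ) : ℤ)
          (fun x hx _ => hes M p ℓ hℓ (hNp ℓ hℓ hℓN hℓp) A hA σ hσ x (by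
            obtain ⟨n, hn⟩ := hx
            exact ⟨n, by rw [hpow]; exact hn⟩))
        simpa using h }
  refine ⟨EM, ?_⟩
  -- the bad-Frobenius relation: cubic on the module, then quartic by algebra
  intro q hq hqp hqM hq2 A hA σ hσ
  have hqpn : ∀ n : ℕ, ¬ q ∣ p ^ n := by
    intro n h
    exact hqp ((Nat.prime_dvd_prime_iff_eq hq hp).1 (hq.dvd_of_dvd_pow h))
  have hc := hcub (σ * σ) (-(2 + (q : ℤ) ^ 2)) (1 + 2 * (q : ℤ) ^ 2) (-((q : ℤ) ^ 2)) (by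
    rintro x ⟨n, hn⟩ hnew
    have h1 := hfrobq ⟨q, hq, hqp, hqM, hq2⟩ A hA σ hσ (p ^ n) (hqpn n) x hn
      (by simpa using hnew 1 (⟨q, hq, hqp, hqM, hq2⟩, true))
      (by simpa using hnew 1 (⟨q, hq, hqp, hqM, hq2⟩, false))
    simp only [mul_smul]
    have h2 : σ • σ • σ • σ • σ • σ • x + (1 + 2 * q ^ 2) • (σ • σ • x)
        = (2 + q ^ 2) • (σ • σ • σ • σ • x) + q ^ 2 • x := h1
    generalize σ • σ • σ • σ • σ • σ • x = X6 at h2 ⊢
    generalize σ • σ • σ • σ • x = X4 at h2 ⊢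
    generalize σ • σ • x = X2 at h2 ⊢
    linear_combination (norm := module) h2)
  -- the quadratic relation with determinant `q`
  obtain ⟨d, hdfrob, -, -, hdcont⟩ := exists_cyclo p O' hpO'
  have hcheb : ChebWeak :=
    chebWeak_of_frobeniusDivision Fermat.Agent.Lib.Cheb.frobeniusDivision
  obtain ⟨tr, htr⟩ : ∃ tr, S30.H990.Rel EM.ρ d σ tr :=
    exists_rel_of_mod EM.ρ d σ (fun n => exists_rel_mod hcheb hpS hMS EM d hdfrob hdcont σ n)
  have hdσ : ((d σ : O'ˣ) : O') = (q : O') := hdfrob q hq hqp A hA σ hσ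
  have hq0 : (q : O') ≠ 0 := Nat.cast_ne_zero.mpr hq.ne_zero
  have hquad' : ∀ w : EM.M, EM.ρ σ (EM.ρ σ w) - tr • EM.ρ σ w + (q : O') • w = 0 := by
    intro w
    have := rel_apply EM.ρ d htr w
    rwa [hdσ] at this
  have hcubic : CubicFrobRel (q : O') (EM.ρ σ) := by
    intro w
    have h2 := hc w
    have hmul : ∀ u : E, ρ (σ * σ) u = ρ σ (ρ σ u) := by
      intro u
      rw [map_mul]
      rfl
    rw [hmul, hmul, hmul] at h2
    show ρ σ (ρ σ (ρ σ (ρ σ (ρ σ (ρ σ w))))) - (2 + (q : O') ^ 2) • ρ σ (ρ σ (ρ σ (ρ σ w)))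
      + (1 + 2 * (q : O') ^ 2) • ρ σ (ρ σ w) - ((q : O') ^ 2) • w = 0
    have e1 : ((-(2 + (q : ℤ) ^ 2) : ℤ) : O') = -(2 + (q : O') ^ 2) := by push_cast; ring
    have e2 : ((1 + 2 * (q : ℤ) ^ 2 : ℤ) : O') = 1 + 2 * (q : O') ^ 2 := by push_cast; ring
    have e3 : ((-((q : ℤ) ^ 2) : ℤ) : O') = -((q : O') ^ 2) := by push_cast; ring
    rw [e1, e2, e3] at h2
    rw [← h2]
    module
  intro w
  exact quartic_of_cubicFrob hq0 hquad' hcubic w

end Fermat.Agent.S35.H891
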